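/-
Programme T1b (S40/S33), brick ELOC (E-side local analysis at `p`), file 2 (helper63).

**Lemma A.**  `W` a Weierstrass curve with integral coefficients over an algebraically closed valued
field `K` whose residue field is infinite (`Separates v`), `n` odd, `(n : K) ≠ 0`.  For every finite
set `C` of non-zero `n`-torsion points lying in the kernel of reduction,

  `v (n) ≤ ∏ c ∈ C, v (z(c))`        (`z = -x/y`).

Proof: `preΨ_n = n ∏ (X - r)` has integral coefficients, hence integral values at integral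
arguments; evaluate at an integral `x₀` incongruent to all integral roots: the big roots contribute
`v (r)`, all the others `1`; `v (z) ^ 2 = 1 / v (x)` in the kernel of reduction and `c ↦ x(c)` is at
most `2`-to-`1`.
-/
import Mathlib
import Fermat.Agent.S05.Kernel
import Fermat.Agent.DivPoly.A1Final

set_option autoImplicit false

open WeierstrassCurve WeierstrassCurve.Affine Polynomial

namespace Fermat.Agent.T1.ELoc63.DivProd

open Fermat.Agent.S05.Kernel

section Integral

variable {K : Type*} [Field K] {Γ₀ : Type*} [LinearOrderedCommGroupWithZero Γ₀]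
  {v : Valuation K Γ₀} {W : Affine K}

/-- The integral model of `W` over the valuation ring of `v`. -/
def intModel (hW : IntegralCoeffs v W) : WeierstrassCurve v.integer :=
  ⟨⟨W.a₁, hW.1⟩, ⟨W.a₂, hW.2.1⟩, ⟨W.a₃, hW.2.2.1⟩, ⟨W.a₄, hW.2.2.2.1⟩, ⟨W.a₆, hW.2.2.2.2⟩⟩

theorem intModel_map (hW : IntegralCoeffs v W) : (intModel hW).map v.integer.subtype = W := by
  ext <;> rfl

/-- The division polynomials of an integral Weierstrass curve have integral coefficients. -/
theorem val_coeff_preΨ_le_one (hW : IntegralCoeffs v W) (n : ℤ) (i : ℕ) :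
    v ((W.preΨ n).coeff i) ≤ 1 := by
  have h : W.preΨ n = ((intModel hW).preΨ n).map v.integer.subtype := by
    rw [← map_preΨ, intModel_map]
  rw [h, coeff_map]
  exact (((intModel hW).preΨ n).coeff i).2

/-- ... and integral values at integral arguments. -/
theorem val_eval_preΨ_le_one (hW : IntegralCoeffs v W) (n : ℤ) {x : K} (hx : v x ≤ 1) :
    v ((W.preΨ n).eval x) ≤ 1 := by
  have h : W.preΨ n = ((intModel hW).preΨ n).map v.integer.subtype := by
    rw [← map_preΨ, intModel_map]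
  have hx' : x = v.integer.subtype ⟨x, hx⟩ := rfl
  rw [h, hx', eval_map_apply]
  exact (((intModel hW).preΨ n).eval (⟨x, hx⟩ : v.integer)).2

end Integral

section Roots

variable {K : Type*} [Field K] {Γ₀ : Type*} [LinearOrderedCommGroupWithZero Γ₀]
  {v : Valuation K Γ₀}

/-- "The residue field is infinite": every finite set of integral elements is avoided, modulo the
maximal ideal, by some integral element. -/
def Separates (v : Valuation K Γ₀) : Prop :=
  ∀ F : Finset K, (∀ r ∈ F, v r ≤ 1) → ∃ x₀ : K, v x₀ ≤ 1 ∧ ∀ r ∈ F, v (x₀ - r) = 1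

/-- A split polynomial with integral values at integral arguments: the leading coefficient times the
product of any finite set of non-integral roots is integral. -/
theorem val_leadingCoeff_mul_prod_le_one (hsep : Separates v) {f : K[X]}
    (hf : f.Splits) (hint : ∀ x : K, v x ≤ 1 → v (f.eval x) ≤ 1)
    (S : Finset K) (hS : ∀ x ∈ S, f.IsRoot x ∧ 1 < v x) (hf0 : f ≠ 0) :
    v f.leadingCoeff * ∏ x ∈ S, v x ≤ 1 := by
  classical
  set R := f.roots with hR
  obtain ⟨x₀, hx₀, hx₀F⟩ := hsep (R.toFinset.filter (fun r => v r ≤ 1)) (fun r hr => by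
    simp only [Finset.mem_filter] at hr
    exact hr.2)
  have hev := hf.eval_eq_prod_roots x₀
  have hval : v (f.eval x₀) = v f.leadingCoeff * (R.map (fun r => v (x₀ - r))).prod := by
    rw [hev, map_mul, map_multiset_prod, Multiset.map_map]
    rfl
  -- every factor is `≥ 1`, and equals `v r` for the big roots
  have hbig : ∀ r : K, 1 < v r → v (x₀ - r) = v r := by
    intro r hr
    rw [Valuation.map_sub_swap]
    exact v.map_sub_eq_of_lt_left (lt_of_le_of_lt hx₀ hr)
  have hge : ∀ r ∈ R, 1 ≤ v (x₀ - r) := by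
    intro r hr
    by_cases h1 : v r ≤ 1
    · rw [hx₀F r (by simp only [Finset.mem_filter, Multiset.mem_toFinset]; exact ⟨hr, h1⟩)]
    · rw [hbig r (not_le.mp h1)]
      exact (not_le.mp h1).le
  -- split the multiset of roots
  have hSle : S.val ≤ R := by
    rw [Multiset.le_iff_subset S.nodup]
    intro x hx
    exact (mem_roots hf0).mpr (hS x hx).1
  obtain ⟨T, hT⟩ := Multiset.le_iff_exists_add.mp hSle
  have hprod : (R.map (fun r => v (x₀ - r))).prod
      = (∏ x ∈ S, v x) * (T.map (fun r => v (x₀ - r))).prod := by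
    rw [hT, Multiset.map_add, Multiset.prod_add]
    congr 1
    rw [Finset.prod_eq_multiset_prod]
    congr 1
    refine Multiset.map_congr rfl (fun x hx => ?_)
    exact hbig x (hS x hx).2
  have hT1 : 1 ≤ (T.map (fun r => v (x₀ - r))).prod := by
    refine Multiset.one_le_prod_of_one_le ?_
    intro y hy
    obtain ⟨r, hr, rfl⟩ := Multiset.mem_map.mp hy
    exact hge r (by rw [hT]; exact Multiset.mem_add.mpr (Or.inr hr))
  calc v f.leadingCoeff * ∏ x ∈ S, v x
      ≤ v f.leadingCoeff * ((∏ x ∈ S, v x) * (T.map (fun r => v (x₀ - r))).prod) :=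
        mul_le_mul' le_rfl (le_mul_of_one_le_right' hT1)
    _ = v (f.eval x₀) := by rw [hval, hprod]
    _ ≤ 1 := hint x₀ hx₀

end Roots

section Points

variable {K : Type*} [Field K] {Γ₀ : Type*} [LinearOrderedCommGroupWithZero Γ₀]
  {v : Valuation K Γ₀} {W : Affine K}

/-- The `x`-coordinate of a point (`0` at infinity). -/
def xc : W.Point → K
  | .zero => 0
  | .some x _ _ => x

@[simp] lemma xc_some {x y : K} (h : W.Nonsingular x y) : xc (Point.some x y h) = x := rfl

/-- In the kernel of reduction, `v (z) ^ 2 * v (x) = 1`. -/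
theorem val_zc_sq_mul (hW : IntegralCoeffs v W) {x y : K} (h : W.Nonsingular x y) (hx : 1 < v x) :
    v (zc (Point.some x y h)) ^ 2 * v x = 1 := by
  obtain ⟨hxy, hyx⟩ := vy_of_vx hW h.1 hx
  have hx0 : v x ≠ 0 := (lt_trans zero_lt_one hx).ne'
  have hy0 : v y ≠ 0 := (lt_trans (lt_trans zero_lt_one hx) hxy).ne'
  rw [zc_some, map_div₀, Valuation.map_neg, div_pow, hyx]
  rw [div_mul_eq_mul_div, div_eq_one_iff_eq (pow_ne_zero 3 hx0)]
  exact (pow_succ (v x) 2).symm

/-- Points with the same `x`-coordinate are equal up to sign. -/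
theorem eq_or_eq_neg_of_xc_eq {c c' : W.Point} (hc : c ≠ 0) (hc' : c' ≠ 0) (h : xc c = xc c') :
    c' = c ∨ c' = -c := by
  rcases c with _ | ⟨x, y, hn⟩
  · exact absurd rfl hc
  rcases c' with _ | ⟨x', y', hn'⟩
  · exact absurd rfl hc'
  simp only [xc_some] at h
  subst h
  rcases Y_eq_of_X_eq hn'.1 hn.1 rfl with hy | hy
  · left; subst hy; rfl
  · right
    rw [Point.neg_some]
    congr 1

variable [DecidableEq K]

/-- **Lemma A.** -/
theorem val_le_prod_zc [IsAlgClosed K] (hW : IntegralCoeffs v W) (hsep : Separates v)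
    {n : ℕ} (hn : Odd n) (hn0 : (n : K) ≠ 0) (C : Finset W.Point)
    (hC : ∀ c ∈ C, c ≠ 0 ∧ n • c = 0 ∧ InE1 v c) :
    v (n : K) ≤ ∏ c ∈ C, v (zc c) := by
  classical
  set f : K[X] := W.preΨ (n : ℤ) with hf
  have hnZ : ((n : ℤ) : K) ≠ 0 := by exact_mod_cast hn0
  have hf0 : f ≠ 0 := W.preΨ_ne_zero hnZ
  have hodd : ¬ Even (n : ℤ) := by
    rw [Int.not_even_iff_odd]
    exact_mod_cast hn
  have hlead : f.leadingCoeff = (n : K) := by
    rw [hf, W.leadingCoeff_preΨ hnZ, if_neg hodd]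
    push_cast
    rfl
  -- the `x`-coordinates
  set S : Finset K := C.image xc with hS
  have hxbig : ∀ c ∈ C, 1 < v (xc c) ∧ f.IsRoot (xc c) := by
    intro c hc
    obtain ⟨hc0, hnc, hE⟩ := hC c hc
    rcases c with _ | ⟨x, y, h⟩
    · exact absurd rfl hc0
    refine ⟨(inE1_some v h).mp hE, ?_⟩
    exact (Fermat.Agent.DivPoly.A1Final.nsmul_eq_zero_iff_preΨ h hn).mp hnc
  have hSroot : ∀ x ∈ S, f.IsRoot x ∧ 1 < v x := by
    intro x hx
    obtain ⟨c, hc, rfl⟩ := Finset.mem_image.mp hx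
    exact ⟨(hxbig c hc).2, (hxbig c hc).1⟩
  have hmain := val_leadingCoeff_mul_prod_le_one hsep (IsAlgClosed.splits f)
    (fun x hx => val_eval_preΨ_le_one hW (n : ℤ) hx) S hSroot hf0
  rw [hlead] at hmain
  -- `v n ≤ ∏ (v x)⁻¹`
  have hP0 : ∏ x ∈ S, v x ≠ 0 := by
    rw [Finset.prod_ne_zero_iff]
    intro x hx
    exact (lt_trans zero_lt_one (hSroot x hx).2).ne'
  have h1 : v (n : K) ≤ ∏ x ∈ S, (v x)⁻¹ := by
    rw [Finset.prod_inv_distrib]
    calc v (n : K) = v (n : K) * (∏ x ∈ S, v x) * (∏ x ∈ S, v x)⁻¹ := by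
          rw [mul_assoc, mul_inv_cancel₀ hP0, mul_one]
      _ ≤ 1 * (∏ x ∈ S, v x)⁻¹ := mul_le_mul' hmain le_rfl
      _ = (∏ x ∈ S, v x)⁻¹ := one_mul _
  -- the squares
  have hsq : ∀ c ∈ C, v (zc c) ^ 2 = (v (xc c))⁻¹ := by
    intro c hc
    obtain ⟨hc0, hnc, hE⟩ := hC c hc
    rcases c with _ | ⟨x, y, h⟩
    · exact absurd rfl hc0
    have hx := (inE1_some v h).mp hE
    rw [xc_some]
    exact eq_inv_of_mul_eq_one_left (val_zc_sq_mul hW h hx)
  have hfib : ∀ x ∈ S, (C.filter (fun c => xc c = x)).card ≤ 2 := by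
    intro x hx
    obtain ⟨c₀, hc₀, rfl⟩ := Finset.mem_image.mp hx
    refine le_trans (Finset.card_le_card (t := {c₀, -c₀}) ?_) Finset.card_le_two
    intro c hc
    simp only [Finset.mem_filter] at hc
    simp only [Finset.mem_insert, Finset.mem_singleton]
    exact eq_or_eq_neg_of_xc_eq (hC c₀ hc₀).1 (hC c hc.1).1 hc.2.symm
  have h2 : ∏ x ∈ S, ((v x)⁻¹) ^ 2 ≤ ∏ c ∈ C, v (zc c) ^ 2 := by
    rw [Finset.prod_congr rfl hsq, ← Finset.prod_fiberwise_of_maps_to
      (s := C) (t := S) (g := xc) (fun c hc => Finset.mem_image_of_mem xc hc)]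
    refine Finset.prod_le_prod' (fun x hx => ?_)
    rw [Finset.prod_congr rfl (fun c hc => by rw [(Finset.mem_filter.mp hc).2]),
      Finset.prod_const]
    have hle1 : (v x)⁻¹ ≤ 1 := by
      rw [inv_le_one₀ (lt_trans zero_lt_one (hSroot x hx).2)]
      exact (hSroot x hx).2.le
    exact pow_le_pow_right_of_le_one' hle1 (hfib x hx)
  have h3 : v (n : K) ^ 2 ≤ (∏ c ∈ C, v (zc c)) ^ 2 := by
    calc v (n : K) ^ 2 ≤ (∏ x ∈ S, (v x)⁻¹) ^ 2 := pow_le_pow_left' h1 2
      _ = ∏ x ∈ S, ((v x)⁻¹) ^ 2 := (Finset.prod_pow _ _ _).symm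
      _ ≤ ∏ c ∈ C, v (zc c) ^ 2 := h2
      _ = (∏ c ∈ C, v (zc c)) ^ 2 := Finset.prod_pow _ _ _
  by_contra hcon
  exact absurd h3 (not_le.mpr (pow_lt_pow_left₀ (not_le.mp hcon) zero_le (by norm_num)))

end Points

end Fermat.Agent.T1.ELoc63.DivProd
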