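/-
Programme T1b (S40/S33), brick ELOC (E-side local analysis at `p`), file 3 (helper63).

The ABSTRACT INERTIA SETTING in which the ordinary half of the `E`-side is proved, and its
field-level toolkit.

`InertiaSetting K p` : a valuation subring `A` of the field `K` (residue characteristic `p`) and a
group `I` of ring automorphisms of `K` which
* preserve the valuation,
* act trivially on the residue field,
* have "unramified" fixed field: a non-zero `I`-fixed element has valuation `v (p) ^ n`, `n : ℤ`.

Both the local model of brick B5 (`K̄ = PadicAlgCl p`, inertial elements of `Gal(K̄/ℚ_p)`) and the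
global model (`ℚ̄`, a valuation subring over `p`, its inertia group) are instances.

Toolkit (generic valuations):
* `separates` : the residue field of a valuation subring of an algebraically closed field is
  infinite, in the form `DivProd.Separates`;
* `val_sub_one_pow` : `v (ζ - 1) ^ (p - 1) = v (p)` for a primitive `p`-th root of unity;
* `val_intCast_eq_one` : integers prime to `p` are units.
-/
import Mathlib
import Fermat.Agent.T1.ELoc63.DivProd
import Fermat.Agent.InertiaMult.ResidueAlgClosed

set_option autoImplicit false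

open Polynomial

namespace Fermat.Agent.T1.ELoc63.Setting

open Fermat.Agent.T1.ELoc63.DivProd

/-- The abstract inertia setting. -/
structure InertiaSetting (K : Type*) [Field K] (p : ℕ) where
  /-- the valuation ring -/
  A : ValuationSubring K
  /-- the inertia group -/
  I : Subgroup (K ≃+* K)
  val_map : ∀ σ ∈ I, ∀ x : K, A.valuation (σ x) = A.valuation x
  inertial : ∀ σ ∈ I, ∀ x : K, A.valuation x ≤ 1 → A.valuation (σ x - x) < 1
  val_p_lt_one : A.valuation (p : K) < 1
  p_ne_zero : (p : K) ≠ 0
  fixed_val : ∀ x : K, x ≠ 0 → (∀ σ ∈ I, σ x = x) →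
    ∃ n : ℤ, A.valuation x = A.valuation (p : K) ^ n

section Generic

variable {K : Type*} [Field K] {Γ₀ : Type*} [LinearOrderedCommGroupWithZero Γ₀]
  (v : Valuation K Γ₀)

theorem val_intCast_le_one (a : ℤ) : v (a : K) ≤ 1 := by
  obtain ⟨n, rfl | rfl⟩ := Int.eq_nat_or_neg a
  · rw [Int.cast_natCast]
    exact Fermat.Agent.S05.Kernel.vle_natCast (v := v) n
  · rw [Int.cast_neg, Int.cast_natCast, Valuation.map_neg]
    exact Fermat.Agent.S05.Kernel.vle_natCast (v := v) n

/-- Integers prime to the residue characteristic are units. -/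
theorem val_intCast_eq_one {p : ℕ} (hp : p.Prime) (hvp : v (p : K) < 1) {a : ℤ}
    (ha : ¬ (p : ℤ) ∣ a) : v (a : K) = 1 := by
  refine le_antisymm (val_intCast_le_one v a) ?_
  have hcop : IsCoprime a (p : ℤ) :=
    ((Nat.prime_iff_prime_int.mp hp).coprime_iff_not_dvd.mpr ha).symm
  obtain ⟨u, w, huw⟩ := hcop
  have h1 : (u : K) * (a : K) + (w : K) * (p : K) = 1 := by exact_mod_cast congrArg (Int.cast : ℤ → K) huw
  by_contra hlt
  push Not at hlt
  have h2 : v ((u : K) * (a : K)) < 1 := by
    rw [map_mul]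
    calc v (u : K) * v (a : K) ≤ 1 * v (a : K) := by gcongr; exact val_intCast_le_one v u
      _ = v (a : K) := one_mul _
      _ < 1 := hlt
  have h3 : v ((w : K) * (p : K)) < 1 := by
    rw [map_mul]
    calc v (w : K) * v (p : K) ≤ 1 * v (p : K) := by gcongr; exact val_intCast_le_one v w
      _ = v (p : K) := one_mul _
      _ < 1 := hvp
  have h4 : v ((u : K) * (a : K) + (w : K) * (p : K)) < 1 :=
    lt_of_le_of_lt (v.map_add _ _) (max_lt h2 h3)
  rw [h1, map_one] at h4
  exact lt_irrefl _ h4

theorem val_natCast_eq_one {p : ℕ} (hp : p.Prime) (hvp : v (p : K) < 1) {a : ℕ}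
    (ha : ¬ p ∣ a) : v (a : K) = 1 := by
  have := val_intCast_eq_one v hp hvp (a := (a : ℤ)) (by exact_mod_cast ha)
  simpa using this

/-- `v (x ^ n - 1) ≤ v (x - 1)` for integral `x`. -/
theorem val_pow_sub_one_le {x : K} (hx : v x ≤ 1) (n : ℕ) : v (x ^ n - 1) ≤ v (x - 1) := by
  rw [← geom_sum_mul, map_mul]
  calc v (∑ i ∈ Finset.range n, x ^ i) * v (x - 1) ≤ 1 * v (x - 1) := by
        gcongr
        refine v.map_sum_le fun i _ => ?_
        rw [map_pow]
        exact pow_le_one₀ zero_le hx
    _ = v (x - 1) := one_mul _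

theorem val_eq_one_of_pow_eq_one {x : K} {n : ℕ} (hn : n ≠ 0) (hx : x ^ n = 1) : v x = 1 := by
  have h1 : v x ^ n = 1 := by rw [← map_pow, hx, map_one]
  rcases lt_trichotomy (v x) 1 with h | h | h
  · exact absurd h1 (pow_lt_one₀ zero_le h hn).ne
  · exact h
  · exact absurd h1 (one_lt_pow₀ h hn).ne'

/-- **`v (ζ - 1) ^ (p - 1) = v (p)`** for a primitive `p`-th root of unity `ζ`. -/
theorem val_sub_one_pow {p : ℕ} (hp : p.Prime) {ζ : K} (hζ : ζ ^ p = 1) (hζ1 : ζ ≠ 1) :
    v (ζ - 1) ^ (p - 1) = v (p : K) := by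
  classical
  have : Fact p.Prime := ⟨hp⟩
  have hprim : IsPrimitiveRoot ζ p := by
    have h := orderOf_eq_prime hζ hζ1
    rw [← h]
    exact IsPrimitiveRoot.orderOf ζ
  have hcyc := Polynomial.cyclotomic_eq_prod_X_sub_primitiveRoots hprim
  have heval : (p : K) = ∏ μ ∈ primitiveRoots p K, (1 - μ) := by
    have h1 := congrArg (Polynomial.eval 1) hcyc
    rw [eval_one_cyclotomic_prime, eval_prod] at h1
    simpa using h1
  have hfac : ∀ μ ∈ primitiveRoots p K, v (1 - μ) = v (ζ - 1) := by
    intro μ hμ
    have hμ' : IsPrimitiveRoot μ p := (mem_primitiveRoots hp.pos).mp hμ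
    obtain ⟨i, _, hi⟩ := hprim.eq_pow_of_pow_eq_one hμ'.pow_eq_one
    obtain ⟨j, _, hj⟩ := hμ'.eq_pow_of_pow_eq_one hprim.pow_eq_one
    have hvζ : v ζ ≤ 1 := (val_eq_one_of_pow_eq_one v hp.ne_zero hζ).le
    have hvμ : v μ ≤ 1 := (val_eq_one_of_pow_eq_one v hp.ne_zero hμ'.pow_eq_one).le
    have e1 : v (1 - μ) = v (μ - 1) := by rw [← Valuation.map_neg, neg_sub]
    rw [e1]
    refine le_antisymm ?_ ?_
    · rw [← hi]; exact val_pow_sub_one_le v hvζ i
    · rw [← hj]; exact val_pow_sub_one_le v hvμ j
  rw [heval, map_prod, Finset.prod_congr rfl hfac, Finset.prod_const,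
    hprim.card_primitiveRoots, Nat.totient_prime hp]

end Generic

section Separates

variable {K : Type*} [Field K] [IsAlgClosed K] (A : ValuationSubring K)

/-- The residue field of a valuation subring of an algebraically closed field is infinite. -/
theorem separates : Separates A.valuation := by
  classical
  intro F hF
  have : IsAlgClosed (IsLocalRing.ResidueField A) :=
    Fermat.Agent.InertiaMult.isAlgClosed_residueField A
  have : Infinite (IsLocalRing.ResidueField A) := IsAlgClosed.instInfinite
  set S : Finset (IsLocalRing.ResidueField A) :=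
    F.image (fun r => if h : r ∈ A then IsLocalRing.residue A ⟨r, h⟩ else 0) with hS
  obtain ⟨c, hc⟩ := Infinite.exists_notMem_finset S
  obtain ⟨x₀, rfl⟩ := IsLocalRing.residue_surjective c
  refine ⟨x₀, A.valuation_le_one x₀, fun r hr => ?_⟩
  have hrA : r ∈ A := (A.valuation_le_one_iff r).mp (hF r hr)
  have hne : IsLocalRing.residue A (x₀ - ⟨r, hrA⟩) ≠ 0 := by
    rw [map_sub, sub_ne_zero]
    intro h
    apply hc
    rw [hS, Finset.mem_image]
    exact ⟨r, hr, by rw [dif_pos hrA, h]⟩
  have hu : IsUnit (x₀ - ⟨r, hrA⟩ : A) := by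
    by_contra hnu
    exact hne ((IsLocalRing.residue_eq_zero_iff _).mpr ((IsLocalRing.mem_maximalIdeal _).mpr hnu))
  have := (A.valuation_eq_one_iff _).mp hu
  simpa using this

end Separates

end Fermat.Agent.T1.ELoc63.Setting
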