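/-
Programme T1B (row 38 via S44 / S40), brick ELOC (E-side local analysis at `p`), file 7 (helper63).

THE RESOLVENT LEMMA (abstract; serves the good-ordinary and the multiplicative case).

`S : InertiaSetting K p`, `ζ` a primitive `p`-th root of unity, `F : ZMod p → K` (in the application
`F k = x(Q + k P₀)`), and for every `σ ∈ I` elements `a σ ≠ 0`, `n σ` of `ZMod p` with
`σ ζ = ζ ^ a σ` and `σ (F k) = F (n σ + a σ k)`.
Let `ρ = v (p) ^ r` with `v (F 0) ≤ ρ` and `ρ v (ζ - 1) ≤ v (F k - F 0)` for `k ≠ 0`.  Then there is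
`y ≠ 0` with `v (y) ∈ v (p) ^ ℤ` and `σ y = ζ ^ n σ · y` for all `σ ∈ I`  (the class of the cocycle
`σ ↦ ζ ^ n σ` is PEU RAMIFIÉ).

Proof: the Lagrange resolvents `R_j = ∑_k ζ^(-jk) F k` satisfy `σ R_j = ζ^(j n σ) R_j` for all
`σ ∈ I`; some `R_j`, `j ≠ 0`, is non-zero and a power `y` of it is a Kummer generator.  `y ^ p` is
`I`-fixed, so `v (y) ^ p = v (p) ^ M`.  If `p ∤ M`, the `b_j = R_j / y ^ j` are `I`-fixed, hence the
non-zero `R_j` have pairwise distinct valuations with `v (R_j) ^ p = v (p) ^ N_j`, `N_j ≡ j M` mod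
`p`; `∑_j R_j = p F 0` forces `v (R_j) ^ p ≤ v (p) ^ (p (1 + r) + 1)` for `j ≠ 0`, and then
`p (F k - F 0) = ∑_j (ζ^(jk) - 1) R_j` is too small.
-/
import Mathlib
import Fermat.Agent.T1.ELoc63.Setting

set_option autoImplicit false
set_option linter.unusedSectionVars false

namespace Fermat.Agent.T1.ELoc63.Resolvent

open Fermat.Agent.T1.ELoc63.Setting

variable {K : Type*} [Field K] {p : ℕ} [hp : Fact p.Prime]

section Fourier

variable {ζ : K} (hζ : ζ ^ p = 1) (F : ZMod p → K)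

/-- the additive character `k ↦ ζ ^ k`. -/
noncomputable def chr : AddChar (ZMod p) K := AddChar.zmodChar p hζ

theorem chr_apply (k : ZMod p) : chr hζ k = ζ ^ k.val := AddChar.zmodChar_apply hζ k

theorem chr_one : chr hζ 1 = ζ := by
  rw [chr_apply, ZMod.val_one, pow_one]

theorem chr_natCast_mul (m : ℕ) (k : ZMod p) : chr hζ ((m : ZMod p) * k) = chr hζ k ^ m := by
  rw [← AddChar.map_nsmul_eq_pow, nsmul_eq_mul]

theorem chr_mul_val (j k : ZMod p) : chr hζ (j * k) = chr hζ k ^ j.val := by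
  rw [← chr_natCast_mul, ZMod.natCast_zmod_val]

/-- the Lagrange resolvents. -/
noncomputable def res (j : ZMod p) : K := ∑ k, chr hζ (-(j * k)) * F k

theorem isPrimitive_chr (hζ1 : ζ ≠ 1) : (chr hζ).IsPrimitive := by
  have hprim : IsPrimitiveRoot ζ p := by
    have h := orderOf_eq_prime hζ hζ1
    rw [← h]
    exact IsPrimitiveRoot.orderOf ζ
  exact AddChar.zmodChar_primitive_of_primitive_root p hprim

/-- Fourier inversion. -/
theorem sum_chr_mul_res (hζ1 : ζ ≠ 1) (k : ZMod p) :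
    ∑ j, chr hζ (j * k) * res hζ F j = (p : K) * F k := by
  classical
  simp only [res, Finset.mul_sum]
  rw [Finset.sum_comm]
  have h1 : ∀ l : ZMod p, ∑ j, chr hζ (j * k) * (chr hζ (-(j * l)) * F l)
      = (if k - l = 0 then (p : K) else 0) * F l := by
    intro l
    have h2 : ∀ j : ZMod p, chr hζ (j * k) * (chr hζ (-(j * l)) * F l)
        = chr hζ (j * (k - l)) * F l := by
      intro j
      rw [← mul_assoc, ← AddChar.map_add_eq_mul]
      congr 2
      ring
    rw [Finset.sum_congr rfl (fun j _ => h2 j), ← Finset.sum_mul,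
      AddChar.sum_mulShift (k - l) (isPrimitive_chr hζ hζ1)]
    congr 1
    split_ifs
    · simp [ZMod.card]
    · simp
  rw [Finset.sum_congr rfl (fun l _ => h1 l)]
  rw [Finset.sum_eq_single k]
  · simp
  · intro l _ hl
    rw [if_neg (sub_ne_zero.mpr (Ne.symm hl)), zero_mul]
  · intro h
    exact absurd (Finset.mem_univ k) h

variable (a n : ZMod p)

/-- a ring automorphism with `σ ζ = ζ ^ a` maps `ζ ^ k` to `ζ ^ (a k)`. -/
theorem map_chr (σ : K ≃+* K) (hσζ : σ ζ = chr hζ a) (k : ZMod p) :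
    σ (chr hζ k) = chr hζ (a * k) := by
  rw [chr_apply, map_pow, hσζ, mul_comm, chr_mul_val]

/-- the resolvents are eigenvectors. -/
theorem map_res (σ : K ≃+* K) (ha : a ≠ 0) (hσζ : σ ζ = chr hζ a)
    (hσF : ∀ k, σ (F k) = F (n + a * k)) (j : ZMod p) :
    σ (res hζ F j) = chr hζ (j * n) * res hζ F j := by
  rw [res, map_sum, Finset.mul_sum]
  have h1 : ∀ k : ZMod p, σ (chr hζ (-(j * k)) * F k)
      = chr hζ (j * n) * (chr hζ (-(j * (n + a * k))) * F (n + a * k)) := by
    intro k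
    rw [map_mul, map_chr hζ a σ hσζ, hσF, ← mul_assoc, ← AddChar.map_add_eq_mul]
    congr 2
    ring
  rw [Finset.sum_congr rfl (fun k _ => h1 k)]
  exact Fintype.sum_equiv ((Equiv.mulLeft₀ a ha).trans (Equiv.addLeft n)) _ _ (fun k => by
    simp [Equiv.trans_apply])

end Fourier

section Main

variable (S : InertiaSetting K p) {ζ : K} (hζ : ζ ^ p = 1) (hζ1 : ζ ≠ 1) (F : ZMod p → K)
  (a n : (K ≃+* K) → ZMod p)

include hζ1 in
/-- **The resolvent lemma**: the cocycle `σ ↦ ζ ^ n σ` is peu ramifié. -/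
theorem exists_kummer_generator
    (ha : ∀ σ ∈ S.I, a σ ≠ 0) (hσζ : ∀ σ ∈ S.I, σ ζ = chr hζ (a σ))
    (hσF : ∀ σ ∈ S.I, ∀ k, σ (F k) = F (n σ + a σ * k))
    (r : ℤ) (hF0 : S.A.valuation (F 0) ≤ S.A.valuation (p : K) ^ r)
    (hd : ∀ k, k ≠ 0 →
      S.A.valuation (p : K) ^ r * S.A.valuation (ζ - 1) ≤ S.A.valuation (F k - F 0)) :
    ∃ y : K, y ≠ 0 ∧ (∃ m : ℤ, S.A.valuation y = S.A.valuation (p : K) ^ m) ∧
      ∀ σ ∈ S.I, σ y = chr hζ (n σ) * y := by
  classical
  set v := S.A.valuation with hv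
  set π := v (p : K) with hπ
  have hπ0 : 0 < π := by
    rw [zero_lt_iff, hπ, Valuation.ne_zero_iff]
    exact S.p_ne_zero
  have hπne : π ≠ 0 := hπ0.ne'
  have hπ1 : π < 1 := S.val_p_lt_one
  have hp0 : p ≠ 0 := hp.out.ne_zero
  have hvζ : v (ζ - 1) ≠ 0 := (Valuation.ne_zero_iff _).mpr (sub_ne_zero.mpr hζ1)
  set R := res hζ F with hRdef
  have hR : ∀ σ ∈ S.I, ∀ j, σ (R j) = chr hζ (j * n σ) * R j := fun σ hσ j =>
    map_res hζ F (a σ) (n σ) σ (ha σ hσ) (hσζ σ hσ) (hσF σ hσ) j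
  have hchr_ne : ∀ k : ZMod p, chr hζ k ≠ 0 := by
    intro k h
    have h1 : chr hζ k ^ p = 1 := by rw [chr_apply, ← pow_mul, mul_comm, pow_mul, hζ, one_pow]
    rw [h, zero_pow hp0] at h1
    exact zero_ne_one h1
  have hone : (1 : ZMod p) ≠ 0 := one_ne_zero
  -- Fourier inversion at `0` and at `1`
  have hsum0 : ∑ j, R j = (p : K) * F 0 := by
    have := sum_chr_mul_res hζ F hζ1 0
    simpa [AddChar.map_zero_eq_one] using this
  have hsum1 : ∑ j, (chr hζ j - 1) * R j = (p : K) * (F 1 - F 0) := by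
    have h1 := sum_chr_mul_res hζ F hζ1 1
    simp only [mul_one] at h1
    rw [mul_sub, ← h1, ← hsum0, ← Finset.sum_sub_distrib]
    refine Finset.sum_congr rfl fun j _ => ?_
    ring
  -- some resolvent with `j ≠ 0` is non-zero
  obtain ⟨j₀, hj₀, hRj₀⟩ : ∃ j₀ : ZMod p, j₀ ≠ 0 ∧ R j₀ ≠ 0 := by
    by_contra hcon
    push Not at hcon
    have h0 : ∑ j, (chr hζ j - 1) * R j = 0 := by
      refine Finset.sum_eq_zero fun j _ => ?_
      by_cases hj : j = 0
      · rw [hj, AddChar.map_zero_eq_one, sub_self, zero_mul]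
      · rw [hcon j hj, mul_zero]
    rw [hsum1] at h0
    have h1 : F 1 - F 0 = 0 := by
      rcases mul_eq_zero.mp h0 with h | h
      · exact absurd h S.p_ne_zero
      · exact h
    have h2 := hd 1 hone
    rw [h1, map_zero] at h2
    have h3 : π ^ r * v (ζ - 1) ≠ 0 := mul_ne_zero (zpow_ne_zero _ hπne) hvζ
    exact h3 (le_antisymm h2 zero_le)
  -- the Kummer generator
  set m₀ := (j₀⁻¹).val with hm₀
  set y := R j₀ ^ m₀ with hy
  have hy0 : y ≠ 0 := pow_ne_zero _ hRj₀
  have hσy : ∀ σ ∈ S.I, σ y = chr hζ (n σ) * y := by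
    intro σ hσ
    rw [hy, map_pow, hR σ hσ, mul_pow, ← chr_natCast_mul, hm₀, ZMod.natCast_zmod_val,
      inv_mul_cancel_left₀ hj₀]
  have hchr_pow : ∀ k : ZMod p, chr hζ k ^ p = 1 := by
    intro k
    rw [chr_apply, ← pow_mul, mul_comm, pow_mul, hζ, one_pow]
  have hyp : ∀ σ ∈ S.I, σ (y ^ p) = y ^ p := by
    intro σ hσ
    rw [map_pow, hσy σ hσ, mul_pow, hchr_pow, one_mul]
  obtain ⟨M, hM⟩ := S.fixed_val (y ^ p) (pow_ne_zero _ hy0) hyp
  rw [map_pow] at hM
  refine ⟨y, hy0, ?_, hσy⟩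
  by_cases hdiv : (p : ℤ) ∣ M
  · obtain ⟨m, rfl⟩ := hdiv
    refine ⟨m, ?_⟩
    have h1 : v y ^ p = (π ^ m) ^ p := by
      rw [hM, ← zpow_natCast (π ^ m) p, ← zpow_mul, mul_comm]
    exact (pow_left_inj₀ zero_le zero_le hp0).mp h1
  · exfalso
    have hpZ : Prime (p : ℤ) := Nat.prime_iff_prime_int.mp hp.out
    -- exponents of the non-zero resolvents
    have hb : ∀ j : ZMod p, R j ≠ 0 →
        ∃ nj : ℤ, v (R j) ^ p = π ^ ((p : ℤ) * nj + M * (j.val : ℤ)) := by
      intro j hRj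
      set b := R j / y ^ j.val with hbdef
      have hb0 : b ≠ 0 := div_ne_zero hRj (pow_ne_zero _ hy0)
      have hbfix : ∀ σ ∈ S.I, σ b = b := by
        intro σ hσ
        rw [hbdef, map_div₀, map_pow, hR σ hσ, hσy σ hσ, mul_pow, ← chr_mul_val,
          mul_div_mul_left _ _ (hchr_ne _)]
      obtain ⟨nj, hnj⟩ := S.fixed_val b hb0 hbfix
      refine ⟨nj, ?_⟩
      have e : R j = b * y ^ j.val := by
        rw [hbdef, div_mul_cancel₀ _ (pow_ne_zero _ hy0)]
      calc v (R j) ^ p = (v b * v y ^ j.val) ^ p := by rw [e, map_mul, map_pow]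
        _ = v b ^ p * (v y ^ p) ^ j.val := by
            rw [mul_pow, ← pow_mul, mul_comm j.val p, pow_mul]
        _ = (π ^ nj) ^ p * (π ^ M) ^ j.val := by rw [hnj, hM]
        _ = π ^ ((p : ℤ) * nj + M * (j.val : ℤ)) := by
            rw [zpow_add₀ hπne, ← zpow_natCast (π ^ nj) p, ← zpow_mul,
              ← zpow_natCast (π ^ M) j.val, ← zpow_mul, mul_comm nj]
    have hvalZ : ∀ j : ZMod p, (p : ℤ) ∣ (j.val : ℤ) → j = 0 := by
      intro j hj
      have h1 : |(j.val : ℤ)| < (p : ℤ) := by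
        rw [abs_of_nonneg (by positivity)]
        exact_mod_cast ZMod.val_lt j
      have h2 := Int.eq_zero_of_abs_lt_dvd hj h1
      have h3 : j.val = 0 := by exact_mod_cast h2
      exact (ZMod.val_eq_zero j).mp h3
    -- distinct valuations
    have hdist : ∀ i j : ZMod p, R i ≠ 0 → R j ≠ 0 → v (R i) = v (R j) → i = j := by
      intro i j hi hj hij
      obtain ⟨ni, hni⟩ := hb i hi
      obtain ⟨nj, hnj⟩ := hb j hj
      rw [hij, hnj] at hni
      have hexp : (p : ℤ) * nj + M * (j.val : ℤ) = (p : ℤ) * ni + M * (i.val : ℤ) :=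
        zpow_right_injective₀ hπ0 hπ1.ne hni
      have h1 : (p : ℤ) ∣ M * ((i.val : ℤ) - (j.val : ℤ)) := ⟨nj - ni, by linarith⟩
      have h2 : (p : ℤ) ∣ (i.val : ℤ) - (j.val : ℤ) := (hpZ.dvd_or_dvd h1).resolve_left hdiv
      have h3 : |(i.val : ℤ) - (j.val : ℤ)| < (p : ℤ) := by
        have hi' : (i.val : ℤ) < p := by exact_mod_cast ZMod.val_lt i
        have hj' : (j.val : ℤ) < p := by exact_mod_cast ZMod.val_lt j
        have hi0 : (0 : ℤ) ≤ i.val := by positivity
        have hj0 : (0 : ℤ) ≤ j.val := by positivity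
        rw [abs_lt]
        constructor <;> linarith
      have h4 := Int.eq_zero_of_abs_lt_dvd h2 h3
      have h5 : i.val = j.val := by
        have : (i.val : ℤ) = j.val := by linarith
        exact_mod_cast this
      exact ZMod.val_injective p h5
    -- dominance
    have hB : v (∑ j, R j) ≤ π ^ (1 + r) := by
      rw [hsum0, map_mul, zpow_add₀ hπne, zpow_one]
      gcongr
    have hdom : ∀ j, v (R j) ≤ π ^ (1 + r) := by
      by_contra hcon
      push Not at hcon
      obtain ⟨j₁, hj₁⟩ := hcon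
      obtain ⟨js, -, hjs⟩ := Finset.exists_max_image Finset.univ (fun j => v (R j))
        ⟨0, Finset.mem_univ _⟩
      have hbig : π ^ (1 + r) < v (R js) := lt_of_lt_of_le hj₁ (hjs j₁ (Finset.mem_univ _))
      have hpos : 0 < v (R js) := lt_of_le_of_lt zero_le hbig
      have hRjs : R js ≠ 0 := (Valuation.ne_zero_iff v).mp hpos.ne'
      have hlt : ∀ i ∈ Finset.univ.erase js, v (R i) < v (R js) := by
        intro i hi
        have hne := Finset.ne_of_mem_erase hi
        by_cases hRi : R i = 0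
        · rw [hRi, map_zero]; exact hpos
        · exact lt_of_le_of_ne (hjs i (Finset.mem_univ _))
            (fun h => hne (hdist i js hRi hRjs h))
      have hsumlt : v (∑ i ∈ Finset.univ.erase js, R i) < v (R js) :=
        Valuation.map_sum_lt v hpos.ne' hlt
      have hEq : v (∑ j, R j) = v (R js) := by
        rw [← Finset.add_sum_erase Finset.univ R (Finset.mem_univ js)]
        exact Valuation.map_add_eq_of_lt_left v hsumlt
      rw [hEq] at hB
      exact absurd hbig (not_lt.mpr hB)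
    -- the resolvents with `j ≠ 0` are small
    have hsmall : ∀ j : ZMod p, j ≠ 0 → v (R j) ^ p ≤ π ^ ((p : ℤ) * (1 + r) + 1) := by
      intro j hj
      by_cases hRj : R j = 0
      · rw [hRj, map_zero, zero_pow hp0]; exact zero_le
      · obtain ⟨nj, hnj⟩ := hb j hRj
        have h1 : v (R j) ^ p ≤ (π ^ (1 + r)) ^ p := pow_le_pow_left₀ zero_le (hdom j) p
        rw [hnj, ← zpow_natCast (π ^ (1 + r)) p, ← zpow_mul,
          zpow_le_zpow_iff_right_of_lt_one₀ hπ0 hπ1] at h1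
        rw [hnj, zpow_le_zpow_iff_right_of_lt_one₀ hπ0 hπ1]
        have hne : (p : ℤ) * nj + M * (j.val : ℤ) ≠ (1 + r) * (p : ℤ) := by
          intro h
          have h2 : (p : ℤ) ∣ M * (j.val : ℤ) := ⟨(1 + r) - nj, by linarith⟩
          rcases hpZ.dvd_or_dvd h2 with h' | h'
          · exact hdiv h'
          · exact hj (hvalZ j h')
        have h3 : (1 + r) * (p : ℤ) < (p : ℤ) * nj + M * (j.val : ℤ) :=
          lt_of_le_of_ne h1 (Ne.symm hne)
        linarith
    -- final contradiction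
    obtain ⟨js, -, hjs⟩ := Finset.exists_max_image Finset.univ
      (fun j => v ((chr hζ j - 1) * R j)) ⟨0, Finset.mem_univ _⟩
    have hT : v ((p : K) * (F 1 - F 0)) ≤ v ((chr hζ js - 1) * R js) := by
      rw [← hsum1]
      exact Valuation.map_sum_le v (fun j _ => hjs j (Finset.mem_univ _))
    have hlow : π * (π ^ r * v (ζ - 1)) ≤ v ((p : K) * (F 1 - F 0)) := by
      rw [map_mul]
      gcongr
      exact hd 1 hone
    have hchr_le : v (chr hζ js - 1) ≤ v (ζ - 1) := by
      rw [chr_apply]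
      exact val_pow_sub_one_le v (val_eq_one_of_pow_eq_one v hp0 hζ).le _
    have hXne : π * (π ^ r * v (ζ - 1)) ≠ 0 :=
      mul_ne_zero hπne (mul_ne_zero (zpow_ne_zero _ hπne) hvζ)
    by_cases hjs0 : js = 0
    · rw [hjs0, AddChar.map_zero_eq_one, sub_self, zero_mul, map_zero] at hT
      exact hXne (le_antisymm (le_trans hlow hT) zero_le)
    · have h1 : (π * (π ^ r * v (ζ - 1))) ^ p ≤ (v (chr hζ js - 1) * v (R js)) ^ p := by
        rw [← map_mul]
        exact pow_le_pow_left₀ zero_le (le_trans hlow hT) p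
      rw [mul_pow, mul_pow, mul_pow] at h1
      have h2 : v (chr hζ js - 1) ^ p * v (R js) ^ p
          ≤ v (ζ - 1) ^ p * π ^ ((p : ℤ) * (1 + r) + 1) :=
        mul_le_mul' (pow_le_pow_left₀ zero_le hchr_le p) (hsmall js hjs0)
      have h3 := le_trans h1 h2
      have e1 : π ^ p * ((π ^ r) ^ p * v (ζ - 1) ^ p)
          = v (ζ - 1) ^ p * π ^ ((p : ℤ) * (1 + r)) := by
        rw [← zpow_natCast π p, ← zpow_natCast (π ^ r) p, ← zpow_mul, ← mul_assoc,
          ← zpow_add₀ hπne, mul_comm]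
        congr 2
        ring
      rw [e1, zpow_add₀ hπne, zpow_one, ← mul_assoc] at h3
      have hX : v (ζ - 1) ^ p * π ^ ((p : ℤ) * (1 + r)) ≠ 0 :=
        mul_ne_zero (pow_ne_zero _ hvζ) (zpow_ne_zero _ hπne)
      have h4 : (1 : S.A.ValueGroup) ≤ π := by
        refine le_of_mul_le_mul_left ?_ (zero_lt_iff.mpr hX)
        rwa [mul_one]
      exact absurd hπ1 (not_lt.mpr h4)

end Main

end Fermat.Agent.T1.ELoc63.Resolvent
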