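/-
Programme T1b (S40/S33), brick ELOC (E-side local analysis at `p`), file 4 (helper63).

POINTS.  `W : WeierstrassCurve ℤ`, `A` a valuation subring of `K`, `E = EL (WA A W)` the curve over `K`
(vocabulary of `RedTors`).  The coordinatewise action `act σ` of a ring automorphism `σ` of `K` on
`E(K)` (an additive homomorphism), its compatibility with `x`, `z`, the kernel of reduction, and, in
an `InertiaSetting` with good reduction:

* `red_act`        : `red (σ P) = red P` for `σ ∈ I`;
* `inE1_act_sub`   : `σ P - P ∈ E₁` for `σ ∈ I`;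
* `val_psi2_eq_one`: a point of odd order `n` outside `E₁` has `v (2y + a₁x + a₃) = 1`
                     (its reduction is not `2`-torsion), with NO assumption on `v (n)`.
-/
import Mathlib
import Fermat.Agent.RedTors.Galois
import Fermat.Agent.T1.ELoc63.Setting

set_option autoImplicit false
set_option linter.unusedSectionVars false

open WeierstrassCurve WeierstrassCurve.Affine IsLocalRing

namespace Fermat.Agent.T1.ELoc63.Points

open Fermat.Agent.RedTors.RedMap Fermat.Agent.RedTors.RedHom Fermat.Agent.RedTors.Galois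
  Fermat.Agent.S05.Kernel Fermat.Agent.T1.ELoc63.Setting

section MapPt

variable {F : Type*} [Field F] [DecidableEq F] {E : Affine F}

theorem negY_map (f : F →+* F) (hf : E.map f = E) (x y : F) :
    E.negY (f x) (f y) = f (E.negY x y) := by
  have h := map_negY (W' := E) f x y
  rwa [hf] at h

theorem slope_map (f : F →+* F) (hf : E.map f = E) (x₁ x₂ y₁ y₂ : F) :
    E.slope (f x₁) (f x₂) (f y₁) (f y₂) = f (E.slope x₁ x₂ y₁ y₂) := by
  have h := map_slope (W := E) f x₁ x₂ y₁ y₂
  rwa [hf] at h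

theorem addX_map (f : F →+* F) (hf : E.map f = E) (x₁ x₂ ℓ : F) :
    E.addX (f x₁) (f x₂) (f ℓ) = f (E.addX x₁ x₂ ℓ) := by
  have h := map_addX (W' := E) f x₁ x₂ ℓ
  rwa [hf] at h

theorem addY_map (f : F →+* F) (hf : E.map f = E) (x₁ y₁ x₂ ℓ : F) :
    E.addY (f x₁) (f x₂) (f y₁) (f ℓ) = f (E.addY x₁ x₂ y₁ ℓ) := by
  have h := map_addY (W' := E) f x₁ y₁ x₂ ℓ
  rwa [hf] at h

/-- the coordinatewise action of a ring endomorphism fixing the curve is additive. -/
theorem mapPt_add (f : F →+* F) (hf : E.map f = E) (P Q : E.Point) :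
    mapPt f hf (P + Q) = mapPt f hf P + mapPt f hf Q := by
  rcases P with _ | ⟨x₁, y₁, h₁⟩
  · change mapPt f hf (0 + Q) = 0 + mapPt f hf Q
    rw [zero_add, zero_add]
  rcases Q with _ | ⟨x₂, y₂, h₂⟩
  · change mapPt f hf (Point.some x₁ y₁ h₁ + 0) = mapPt f hf (Point.some x₁ y₁ h₁) + 0
    rw [add_zero, add_zero]
  obtain ⟨h₁', e₁⟩ := mapPt_some f hf h₁
  obtain ⟨h₂', e₂⟩ := mapPt_some f hf h₂
  by_cases hxy : x₁ = x₂ ∧ y₁ = E.negY x₂ y₂
  · rw [Point.add_of_Y_eq hxy.1 hxy.2, e₁, e₂,
      Point.add_of_Y_eq (congrArg f hxy.1) (by rw [hxy.2, negY_map f hf])]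
    rfl
  · have hxy' : ¬ (f x₁ = f x₂ ∧ f y₁ = E.negY (f x₂) (f y₂)) := by
      rintro ⟨h1, h2⟩
      rw [negY_map f hf] at h2
      exact hxy ⟨f.injective h1, f.injective h2⟩
    obtain ⟨h₃', e₃⟩ := mapPt_some f hf (nonsingular_add h₁ h₂ hxy)
    rw [Point.add_some hxy, e₁, e₂, e₃, Point.add_some hxy']
    simp only [Point.some.injEq]
    rw [slope_map f hf, addX_map f hf, addY_map f hf]
    exact ⟨rfl, rfl⟩

/-- the coordinatewise action as an additive homomorphism. -/
def mapPtHom (f : F →+* F) (hf : E.map f = E) : E.Point →+ E.Point where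
  toFun := mapPt f hf
  map_zero' := rfl
  map_add' := mapPt_add f hf

end MapPt

section Curve

variable {K : Type*} [Field K] [DecidableEq K] (A : ValuationSubring K) (W : WeierstrassCurve ℤ)

/-- the curve over `K`. -/
abbrev EK : Affine K := EL (WA A W)

/-- the action of a ring automorphism on the points. -/
def act (σ : K ≃+* K) : (EK A W).Point →+ (EK A W).Point :=
  mapPtHom (σ : K →+* K) (EL_map_eq A W _)

variable {A W}

theorem act_some (σ : K ≃+* K) {x y : K} (h : (EK A W).Nonsingular x y) :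
    ∃ h' : (EK A W).Nonsingular (σ x) (σ y), act A W σ (Point.some x y h) = Point.some _ _ h' :=
  mapPt_some (σ : K →+* K) (EL_map_eq A W _) h

theorem act_one (P : (EK A W).Point) : act A W 1 P = P := by
  rcases P with _ | ⟨x, y, h⟩
  · rfl
  · rfl

theorem act_mul (σ τ : K ≃+* K) (P : (EK A W).Point) :
    act A W (σ * τ) P = act A W σ (act A W τ P) := by
  rcases P with _ | ⟨x, y, h⟩
  · rfl
  · rfl

theorem act_inv_act (σ : K ≃+* K) (P : (EK A W).Point) : act A W σ⁻¹ (act A W σ P) = P := by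
  rw [← act_mul, inv_mul_cancel, act_one]

theorem act_act_inv (σ : K ≃+* K) (P : (EK A W).Point) : act A W σ (act A W σ⁻¹ P) = P := by
  rw [← act_mul, mul_inv_cancel, act_one]

theorem act_injective (σ : K ≃+* K) : Function.Injective (act A W σ) := fun P Q h => by
  rw [← act_inv_act σ P, h, act_inv_act]

theorem act_eq_zero_iff (σ : K ≃+* K) (P : (EK A W).Point) : act A W σ P = 0 ↔ P = 0 := by
  constructor
  · intro h
    exact act_injective σ (by rw [h, map_zero])
  · rintro rfl
    exact map_zero _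

theorem xc_act (σ : K ≃+* K) (P : (EK A W).Point) :
    Fermat.Agent.T1.ELoc63.DivProd.xc (act A W σ P) = σ (Fermat.Agent.T1.ELoc63.DivProd.xc P) := by
  rcases P with _ | ⟨x, y, h⟩
  · change (0 : K) = σ 0
    rw [map_zero]
  · rfl

theorem zc_act (σ : K ≃+* K) (P : (EK A W).Point) : zc (act A W σ P) = σ (zc P) := by
  rcases P with _ | ⟨x, y, h⟩
  · change (0 : K) = σ 0
    rw [map_zero]
  · obtain ⟨h', e⟩ := act_some σ h
    rw [e, zc_some, zc_some, map_div₀, map_neg]

theorem nsmul_act (σ : K ≃+* K) (n : ℕ) (P : (EK A W).Point) :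
    act A W σ (n • P) = n • act A W σ P := map_nsmul _ _ _

end Curve

section Inertia

variable {K : Type*} [Field K] [DecidableEq K] {p : ℕ} (S : InertiaSetting K p)
  {W : WeierstrassCurve ℤ}

theorem mem_iff_of_mem (σ : K ≃+* K) (hσ : σ ∈ S.I) (x : K) : σ x ∈ S.A ↔ x ∈ S.A := by
  rw [← S.A.valuation_le_one_iff, ← S.A.valuation_le_one_iff, S.val_map σ hσ]

theorem inE1_act_iff (σ : K ≃+* K) (hσ : σ ∈ S.I) (P : (EK S.A W).Point) :
    InE1 S.A.valuation (act S.A W σ P) ↔ InE1 S.A.valuation P := by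
  rcases P with _ | ⟨x, y, h⟩
  · exact ⟨fun _ => inE1_zero _, fun _ => inE1_zero _⟩
  · obtain ⟨h', e⟩ := act_some σ h
    rw [e, inE1_some, inE1_some, S.val_map σ hσ]

variable [DecidableEq (ResidueField S.A)] (hgood : (Ek (WA S.A W)).Δ ≠ 0)

include hgood

/-- **Inertia acts trivially on the reduction.** -/
theorem red_act (σ : K ≃+* K) (hσ : σ ∈ S.I) (P : (EK S.A W).Point) :
    red (WA S.A W) hgood (act S.A W σ P) = red (WA S.A W) hgood P := by
  have hres : ∀ (a : S.A) (h : (σ : K →+* K) (a : K) ∈ S.A),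
      residue S.A ⟨(σ : K →+* K) (a : K), h⟩ = (RingHom.id (ResidueField S.A)) (residue S.A a) := by
    intro a h
    rw [RingHom.id_apply, residue_eq_iff_val]
    exact S.inertial σ hσ a (S.A.valuation_le_one a)
  have hcompat := red_mapPt hgood (σ : K →+* K) (RingHom.id _)
    (fun x => mem_iff_of_mem S σ hσ x) hres (EL_map_eq S.A W _) (Ek_map_eq S.A W _) P
  have hid : ∀ R : (Ek (WA S.A W)).Point, mapPt (RingHom.id _) (Ek_map_eq S.A W _) R = R := by
    intro R
    rcases R with _ | ⟨x, y, h⟩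
    · rfl
    · rfl
  rw [hid] at hcompat
  exact hcompat

/-- **`σ P - P` lies in the kernel of reduction for `σ ∈ I`.** -/
theorem inE1_act_sub (σ : K ≃+* K) (hσ : σ ∈ S.I) (P : (EK S.A W).Point) :
    InE1 S.A.valuation (act S.A W σ P - P) := by
  rw [← red_eq_zero_iff hgood, map_sub, red_act S hgood σ hσ, sub_self]

/-- **A point of odd order outside the kernel of reduction does not reduce to a `2`-torsion point.** -/
theorem val_psi2_eq_one {n : ℕ} (hn : Odd n) {x y : K} (h : (EK S.A W).Nonsingular x y)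
    (hP : n • Point.some x y h = 0) (hx : S.A.valuation x ≤ 1) :
    S.A.valuation (2 * y + (EK S.A W).a₁ * x + (EK S.A W).a₃) = 1 := by
  have hrel := redRel_red hgood (Point.some x y h)
  rcases hrel with ⟨hE1, -⟩ | ⟨a, b, hn', hk, he, hred⟩
  · rw [inE1_some] at hE1
    exact absurd hE1 (not_lt.mpr hx)
  · rw [Point.some.injEq] at he
    obtain ⟨rfl, rfl⟩ := he
    by_contra hne
    have hle : S.A.valuation (2 * (b : K) + (EK S.A W).a₁ * (a : K) + (EK S.A W).a₃) ≤ 1 := by
      have e : 2 * (b : K) + (EK S.A W).a₁ * (a : K) + (EK S.A W).a₃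
          = ((b - (WA S.A W).toAffine.negY a b : S.A) : K) := by
        simp only [negY, WeierstrassCurve.map_a₁, WeierstrassCurve.map_a₃,
          ValuationSubring.algebraMap_apply]
        push_cast
        ring
      rw [e]
      exact S.A.valuation_le_one _
    have hlt : S.A.valuation (2 * (b : K) + (EK S.A W).a₁ * (a : K) + (EK S.A W).a₃) < 1 :=
      lt_of_le_of_ne hle hne
    have e : 2 * (b : K) + (EK S.A W).a₁ * (a : K) + (EK S.A W).a₃
        = ((b - (WA S.A W).toAffine.negY a b : S.A) : K) := by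
      simp only [negY, WeierstrassCurve.map_a₁, WeierstrassCurve.map_a₃,
        ValuationSubring.algebraMap_apply]
      push_cast
      ring
    rw [e, ← residue_eq_zero_iff_val, map_sub, sub_eq_zero, ← negY_k] at hlt
    -- the reduction is `2`-torsion
    have h2 : red (WA S.A W) hgood (Point.some _ _ hn') + red (WA S.A W) hgood (Point.some _ _ hn')
        = 0 := by
      rw [hred]
      exact Point.add_self_of_Y_eq hlt
    obtain ⟨k, hk2⟩ := hn
    have h3 : red (WA S.A W) hgood (n • Point.some _ _ hn') = 0 := by rw [hP, map_zero]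
    rw [map_nsmul, hk2, add_smul, mul_comm, mul_smul, two_nsmul, h2, nsmul_zero, zero_add, one_nsmul, hred] at h3
    exact Point.some_ne_zero hk h3

end Inertia

end Fermat.Agent.T1.ELoc63.Points
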