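/-
Programme T1b (S40/S33), brick ELOC (E-side local analysis at `p`), file 5 (helper63).

Two "Newton polygon lite" lemmas for split polynomials over a valued field:

* `val_coeff_le_of_roots_le`  : if all roots of `f` are integral then `v (f_i) ≤ v (lead f)`;
* `val_coeff_lt_of_roots_gt`  : if all roots of `f` are non-integral then `v (f_i) < v (f_0)` for
                                 `i > 0` (provided `f_0 ≠ 0`, automatic), in the form
                                 `v (f_i) < 1` when `v (f_0) ≤ 1`.
-/
import Mathlib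

set_option autoImplicit false

open Polynomial

namespace Fermat.Agent.T1.ELoc63.PolyVal

variable {K : Type*} [Field K] {Γ₀ : Type*} [LinearOrderedCommGroupWithZero Γ₀]
  (v : Valuation K Γ₀)

/-- A product of `X - r`, `r` integral, has integral coefficients. -/
theorem val_coeff_prod_X_sub_C_le (s : Multiset K) (hs : ∀ r ∈ s, v r ≤ 1) (i : ℕ) :
    v ((s.map (fun r => X - C r)).prod.coeff i) ≤ 1 := by
  induction s using Multiset.induction_on generalizing i with
  | empty =>
    simp only [Multiset.map_zero, Multiset.prod_zero, coeff_one]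
    split_ifs
    · exact (map_one v).le
    · rw [map_zero]; exact zero_le_one
  | cons a s ih =>
    have ha : v a ≤ 1 := hs a (Multiset.mem_cons_self a s)
    have ih' := ih (fun r hr => hs r (Multiset.mem_cons_of_mem hr))
    rw [Multiset.map_cons, Multiset.prod_cons]
    rcases i with _ | i
    · rw [mul_coeff_zero, map_mul]
      have h1 : v ((X - C a : K[X]).coeff 0) ≤ 1 := by
        simp only [coeff_sub, coeff_X_zero, coeff_C_zero, zero_sub, Valuation.map_neg]
        exact ha
      exact mul_le_one' h1 (ih' 0)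
    · rw [coeff_X_sub_C_mul]
      refine (v.map_sub _ _).trans (max_le (ih' i) ?_)
      rw [map_mul]
      exact mul_le_one' ha (ih' (i + 1))

/-- If all roots of a split polynomial are integral, its coefficients are bounded by the leading
coefficient. -/
theorem val_coeff_le_of_roots_le {f : K[X]} (hf : f.Splits) (hroots : ∀ r ∈ f.roots, v r ≤ 1)
    (i : ℕ) : v (f.coeff i) ≤ v f.leadingCoeff := by
  conv_lhs => rw [hf.eq_prod_roots]
  rw [coeff_C_mul, map_mul]
  calc v f.leadingCoeff * v ((f.roots.map (fun r => X - C r)).prod.coeff i)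
      ≤ v f.leadingCoeff * 1 := by
        gcongr
        exact val_coeff_prod_X_sub_C_le v f.roots hroots i
    _ = v f.leadingCoeff := mul_one _

/-- A product of `1 - t X`, `t` in the maximal ideal, is `≡ 1`. -/
theorem val_coeff_prod_one_sub (s : Multiset K) (hs : ∀ t ∈ s, v t < 1) :
    (s.map (fun t => 1 - C t * X)).prod.coeff 0 = 1 ∧
      (∀ i, v ((s.map (fun t => (1 : K[X]) - C t * X)).prod.coeff i) ≤ 1) ∧
      ∀ i, 0 < i → v ((s.map (fun t => (1 : K[X]) - C t * X)).prod.coeff i) < 1 := by
  induction s using Multiset.induction_on with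
  | empty =>
    simp only [Multiset.map_zero, Multiset.prod_zero, coeff_one]
    refine ⟨by simp, fun i => ?_, fun i hi => ?_⟩
    · split_ifs
      · exact (map_one v).le
      · rw [map_zero]; exact zero_le_one
    · rw [if_neg hi.ne', map_zero]; exact zero_lt_one
  | cons a s ih =>
    have ha : v a < 1 := hs a (Multiset.mem_cons_self a s)
    obtain ⟨ih0, ihle, ihlt⟩ := ih (fun r hr => hs r (Multiset.mem_cons_of_mem hr))
    rw [Multiset.map_cons, Multiset.prod_cons]
    set q := (s.map (fun t => (1 : K[X]) - C t * X)).prod with hq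
    have hcoeff0 : ((1 - C a * X) * q).coeff 0 = q.coeff 0 := by
      rw [mul_coeff_zero]
      simp
    have hcoeff : ∀ i, ((1 - C a * X) * q).coeff (i + 1) = q.coeff (i + 1) - a * q.coeff i := by
      intro i
      rw [sub_mul, one_mul, coeff_sub, mul_assoc, coeff_C_mul, coeff_X_mul]
    refine ⟨by rw [hcoeff0, ih0], fun i => ?_, fun i hi => ?_⟩
    · rcases i with _ | i
      · rw [hcoeff0]; exact ihle 0
      · rw [hcoeff]
        refine (v.map_sub _ _).trans (max_le (ihle _) ?_)
        rw [map_mul]
        exact mul_le_one' ha.le (ihle i)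
    · obtain ⟨j, rfl⟩ : ∃ j, i = j + 1 := ⟨i - 1, by omega⟩
      rw [hcoeff]
      refine lt_of_le_of_lt (v.map_sub _ _) (max_lt (ihlt _ (Nat.succ_pos j)) ?_)
      rw [map_mul]
      calc v a * v (q.coeff j) ≤ v a * 1 := by gcongr; exact ihle j
        _ = v a := mul_one _
        _ < 1 := ha

/-- If all roots of a split polynomial with integral constant coefficient are non-integral, all its
other coefficients lie in the maximal ideal. -/
theorem val_coeff_lt_of_roots_gt {f : K[X]} (hf : f.Splits) (hroots : ∀ r ∈ f.roots, 1 < v r)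
    (h0 : v (f.coeff 0) ≤ 1) {i : ℕ} (hi : 0 < i) : v (f.coeff i) < 1 := by
  -- `X - r = (-r) (1 - r⁻¹ X)`
  have hfac : ∀ s : Multiset K, (∀ r ∈ s, r ≠ 0) →
      (s.map (fun r => X - C r)).prod =
        C (s.map (fun r => -r)).prod * (s.map (fun t => (1 : K[X]) - C t⁻¹ * X)).prod := by
    intro s
    induction s using Multiset.induction_on with
    | empty => intro _; simp
    | cons a s ih =>
      intro hs
      have ha : a ≠ 0 := hs a (Multiset.mem_cons_self a s)
      rw [Multiset.map_cons, Multiset.prod_cons, Multiset.map_cons, Multiset.prod_cons,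
        Multiset.map_cons, Multiset.prod_cons, ih (fun r hr => hs r (Multiset.mem_cons_of_mem hr))]
      have e : (X - C a : K[X]) = C (-a) * (1 - C a⁻¹ * X) := by
        rw [mul_sub, mul_one, ← mul_assoc, ← C_mul, neg_mul, mul_inv_cancel₀ ha]
        simp only [C_neg, C_1, neg_mul, one_mul, sub_neg_eq_add]
        ring
      rw [e, C_mul]
      ring
  have hne : ∀ r ∈ f.roots, r ≠ 0 := by
    intro r hr h
    have := hroots r hr
    rw [h, map_zero] at this
    exact absurd this (not_lt.mpr zero_le_one)
  have hf' := hf.eq_prod_roots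
  rw [hfac f.roots hne, ← mul_assoc, ← C_mul] at hf'
  set a₀ := f.leadingCoeff * (f.roots.map (fun r => -r)).prod with ha₀
  set s' : Multiset K := f.roots.map (fun r => r⁻¹) with hs'
  have hmap : (f.roots.map (fun t => (1 : K[X]) - C t⁻¹ * X))
      = s'.map (fun t => (1 : K[X]) - C t * X) := by
    rw [hs', Multiset.map_map]
    rfl
  rw [hmap] at hf'
  have hs'lt : ∀ t ∈ s', v t < 1 := by
    intro t ht
    rw [hs', Multiset.mem_map] at ht
    obtain ⟨r, hr, rfl⟩ := ht
    rw [map_inv₀]
    exact inv_lt_one_of_one_lt₀ (hroots r hr)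
  obtain ⟨h1, -, h3⟩ := val_coeff_prod_one_sub v s' hs'lt
  have hc0 : f.coeff 0 = a₀ := by
    conv_lhs => rw [hf']
    rw [coeff_C_mul, h1, mul_one]
  conv_lhs => rw [hf']
  rw [coeff_C_mul, map_mul, ← hc0]
  calc v (f.coeff 0) * v ((s'.map (fun t => (1 : K[X]) - C t * X)).prod.coeff i)
      ≤ 1 * v ((s'.map (fun t => (1 : K[X]) - C t * X)).prod.coeff i) := by gcongr
    _ = v ((s'.map (fun t => (1 : K[X]) - C t * X)).prod.coeff i) := one_mul _
    _ < 1 := h3 i hi

end Fermat.Agent.T1.ELoc63.PolyVal
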