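/-
Programme T1b (S40/S33), brick ELOC (E-side local analysis at `p`), file 6 (helper63).

STRUCTURE of `E[p]` in the ORDINARY case, in an abstract `InertiaSetting`:
`W : WeierstrassCurve ℤ` with good reduction, `p` an odd prime, `IsOrd W p`
(`preΨ_p mod p` non-constant).  `C := E[p] ∩ E₁`.

* `exists_mem_C`      : `C ≠ 0`;
* `exists_not_mem_C`  : `C ≠ E[p]`;
* `exists_nsmul_eq`   : `C` is cyclic of order `p`: every `c ∈ C` is a multiple of any `P₀ ∈ C ∖ 0`;
* `val_zc_pow`        : `v (z(P₀)) ^ (p - 1) = v (p)` for `P₀ ∈ C ∖ 0`  (Lemma A + Lemma B);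
* `exists_act_ne`     : no non-zero point of `C` is fixed by inertia.
-/
import Mathlib
import Fermat.Agent.T1.ELoc63.Points
import Fermat.Agent.T1.ELoc63.PolyVal
import Fermat.Agent.T1.ESS46.Dichotomy

set_option autoImplicit false
set_option linter.unusedSectionVars false
set_option linter.style.haveILetI false

open WeierstrassCurve WeierstrassCurve.Affine IsLocalRing Polynomial

namespace Fermat.Agent.T1.ELoc63.Structure

open Fermat.Agent.RedTors.RedMap Fermat.Agent.RedTors.RedHom Fermat.Agent.RedTors.Galois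
  Fermat.Agent.S05.Kernel Fermat.Agent.T1.ELoc63.Setting Fermat.Agent.T1.ELoc63.Points
  Fermat.Agent.T1.ELoc63.DivProd Fermat.Agent.T1.ELoc63.PolyVal
  Fermat.Agent.T1.ESS46.Dichotomy

section Poly

variable {K : Type*} [Field K] (A : ValuationSubring K) (W : WeierstrassCurve ℤ)

theorem preΨ_EK (n : ℤ) : (EK A W).preΨ n = (W.preΨ n).map (Int.castRingHom K) := by
  change WeierstrassCurve.preΨ (EL (WA A W)) n = _
  rw [EL_eq]
  exact WeierstrassCurve.map_preΨ W _ n

theorem coeff_preΨ_EK (n : ℤ) (i : ℕ) :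
    ((EK A W).preΨ n).coeff i = (((W.preΨ n).coeff i : ℤ) : K) := by
  rw [preΨ_EK, coeff_map, eq_intCast]

theorem EK_Δ_ne_zero (hgood : (Ek (WA A W)).Δ ≠ 0) : (EK A W).Δ ≠ 0 := by
  intro h
  apply hgood
  have h1 : (EK A W).Δ = (((WA A W).Δ : A) : K) := by
    change ((WA A W).map (algebraMap A K)).Δ = _
    rw [WeierstrassCurve.map_Δ]
    rfl
  rw [h1] at h
  have h2 : (WA A W).Δ = 0 := Subtype.ext h
  change ((WA A W).map (residue A)).Δ = 0
  rw [WeierstrassCurve.map_Δ, h2, map_zero]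

end Poly

section Ord

variable {K : Type*} [Field K] [IsAlgClosed K] [DecidableEq K] {p : ℕ} (S : InertiaSetting K p)
  {W : WeierstrassCurve ℤ} (hgood : (Ek (WA S.A W)).Δ ≠ 0) (hp : p.Prime) (hp2 : p ≠ 2)
  (hord : IsOrd W p)

include hp hord in
theorem exists_unit_coeff :
    ∃ i, 0 < i ∧ S.A.valuation (((EK S.A W).preΨ (p : ℤ)).coeff i) = 1 := by
  obtain ⟨i, hi, hdvd⟩ := hord
  exact ⟨i, hi, by rw [coeff_preΨ_EK]; exact val_intCast_eq_one _ hp S.val_p_lt_one hdvd⟩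

include hp hp2 in
theorem leadingCoeff_preΨ_EK : ((EK S.A W).preΨ (p : ℤ)).leadingCoeff = (p : K) := by
  have h : (((p : ℤ) : ℤ) : K) ≠ 0 := by
    rw [Int.cast_natCast]; exact S.p_ne_zero
  rw [WeierstrassCurve.leadingCoeff_preΨ _ h, if_neg (Fermat.Agent.T1.ESS46.Torsion.not_even_cast hp hp2),
    Int.cast_natCast]

include hgood hp hp2 in
/-- every root of `preΨ_p` is the `x`-coordinate of a non-zero `p`-torsion point. -/
theorem exists_point_of_root {r : K} (hr : r ∈ ((EK S.A W).preΨ (p : ℤ)).roots) :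
    ∃ (y : K) (h : (EK S.A W).Nonsingular r y), p • Point.some r y h = 0 := by
  obtain ⟨y, hy⟩ := Fermat.Agent.S51.exists_equation (EK S.A W) r
  have h : (EK S.A W).Nonsingular r y :=
    (equation_iff_nonsingular_of_Δ_ne_zero (EK_Δ_ne_zero S.A W hgood)).mp hy
  refine ⟨y, h, ?_⟩
  rw [Fermat.Agent.DivPoly.A1Final.nsmul_eq_zero_iff_preΨ h (hp.odd_of_ne_two hp2)]
  exact (mem_roots'.mp hr).2

include hgood hp hp2 hord in
/-- **`C ≠ 0`**: there is a non-zero `p`-torsion point in the kernel of reduction. -/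
theorem exists_mem_C :
    ∃ c : (EK S.A W).Point, c ≠ 0 ∧ p • c = 0 ∧ InE1 S.A.valuation c := by
  by_contra hcon
  push Not at hcon
  set f := (EK S.A W).preΨ (p : ℤ) with hf
  have hroots : ∀ r ∈ f.roots, S.A.valuation r ≤ 1 := by
    intro r hr
    obtain ⟨y, h, hP⟩ := exists_point_of_root S hgood hp hp2 hr
    have := hcon _ (Point.some_ne_zero h) hP
    rw [inE1_some] at this
    exact not_lt.mp this
  obtain ⟨i, _, hi⟩ := exists_unit_coeff S hp hord
  have h1 := val_coeff_le_of_roots_le S.A.valuation (IsAlgClosed.splits f) hroots i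
  rw [hi, hf, leadingCoeff_preΨ_EK S hp hp2] at h1
  exact absurd S.val_p_lt_one (not_lt.mpr h1)

include hgood hp hp2 hord in
/-- **`C ≠ E[p]`**: there is a `p`-torsion point outside the kernel of reduction. -/
theorem exists_not_mem_C :
    ∃ Q : (EK S.A W).Point, p • Q = 0 ∧ ¬ InE1 S.A.valuation Q := by
  by_contra hcon
  push Not at hcon
  set f := (EK S.A W).preΨ (p : ℤ) with hf
  have hroots : ∀ r ∈ f.roots, 1 < S.A.valuation r := by
    intro r hr
    obtain ⟨y, h, hP⟩ := exists_point_of_root S hgood hp hp2 hr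
    have := hcon _ hP
    rwa [inE1_some] at this
  obtain ⟨i, hipos, hi⟩ := exists_unit_coeff S hp hord
  have h0 : S.A.valuation (f.coeff 0) ≤ 1 :=
    val_coeff_preΨ_le_one (integralCoeffs (WA S.A W)) _ 0
  have h1 := val_coeff_lt_of_roots_gt S.A.valuation (IsAlgClosed.splits f) hroots h0 hipos
  rw [hi] at h1
  exact lt_irrefl _ h1

end Ord


/-- In a `ZMod p`-vector space with at most `p²` elements, a proper subgroup is generated by any of
its non-zero elements. -/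
theorem exists_nsmul_eq_of_proper {p : ℕ} [hp : Fact p.Prime] {V : Type*} [AddCommGroup V]
    [Module (ZMod p) V] [Finite V] (hcard : Nat.card V ≤ p ^ 2) (N' : AddSubgroup V)
    {P₀ Q c : V} (hP₀ : P₀ ∈ N') (hP₀0 : P₀ ≠ 0) (hQ : Q ∉ N') (hc : c ∈ N') :
    ∃ k : ℕ, k < p ∧ c = k • P₀ := by
  have hfr := Fermat.Agent.DivPoly.Count.finrank_le_two_of_card_le (p := p) (V := V) hcard
  set N : Submodule (ZMod p) V := AddSubgroup.toZModSubmodule p N' with hN
  have hbot : N ≠ ⊥ := by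
    intro h
    have h1 : P₀ ∈ N := hP₀
    rw [h, Submodule.mem_bot] at h1
    exact hP₀0 h1
  have htop : N ≠ ⊤ := by
    intro h
    have h1 : Q ∈ N := by rw [h]; exact Submodule.mem_top
    exact hQ h1
  obtain ⟨h1, -⟩ := Fermat.Agent.DivPoly.Count.finrank_eq_of_proper hfr N hbot htop
  have hne : (⟨P₀, hP₀⟩ : N) ≠ 0 := fun h => hP₀0 (congrArg Subtype.val h)
  obtain ⟨a, ha⟩ := (finrank_eq_one_iff_of_nonzero' _ hne).mp h1 ⟨c, hc⟩
  refine ⟨a.val, ZMod.val_lt a, ?_⟩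
  have h2 : a • P₀ = c := congrArg Subtype.val ha
  rw [← h2, ← Nat.cast_smul_eq_nsmul (ZMod p), ZMod.natCast_zmod_val]

section Ord2

variable {K : Type*} [Field K] [IsAlgClosed K] [DecidableEq K] {p : ℕ} (S : InertiaSetting K p)
  {W : WeierstrassCurve ℤ} (hgood : (Ek (WA S.A W)).Δ ≠ 0) (hp : p.Prime) (hp2 : p ≠ 2)
  (hord : IsOrd W p)

include hgood hp hp2 hord in
/-- **`C` is cyclic of order `p`.** -/
theorem exists_nsmul_eq {P₀ c : (EK S.A W).Point} (hP₀ : P₀ ≠ 0) (hP₀p : p • P₀ = 0)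
    (hP₀E : InE1 S.A.valuation P₀) (hcp : p • c = 0) (hcE : InE1 S.A.valuation c) :
    ∃ k : ℕ, k < p ∧ c = k • P₀ := by
  classical
  have hfact : Fact p.Prime := ⟨hp⟩
  have hodd := hp.odd_of_ne_two hp2
  have hW := integralCoeffs (WA S.A W)
  have hmemT : ∀ P : (EK S.A W).Point,
      P ∈ Submodule.torsionBy ℤ (EK S.A W).Point (p : ℤ) ↔ p • P = 0 := fun P => by
    rw [Submodule.mem_torsionBy_iff, natCast_zsmul]
  have hkill : ∀ x : Submodule.torsionBy ℤ (EK S.A W).Point (p : ℤ), p • x = 0 := fun x => by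
    apply Subtype.ext
    rw [AddSubmonoidClass.coe_nsmul]
    exact (hmemT _).1 x.2
  letI : Module (ZMod p) (Submodule.torsionBy ℤ (EK S.A W).Point (p : ℤ)) :=
    AddCommGroup.zmodModule hkill
  haveI : Finite (Submodule.torsionBy ℤ (EK S.A W).Point (p : ℤ)) :=
    Fermat.Agent.DivPoly.A1Final.finite_torsionBy hodd S.p_ne_zero
  have hcard : Nat.card (Submodule.torsionBy ℤ (EK S.A W).Point (p : ℤ)) ≤ p ^ 2 :=
    Fermat.Agent.DivPoly.A1Final.card_torsionBy_le hodd S.p_ne_zero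
  obtain ⟨Q, hQp, hQE⟩ := exists_not_mem_C S hgood hp hp2 hord
  obtain ⟨k, hk, hkc⟩ := exists_nsmul_eq_of_proper hcard
    ((E1 S.A.valuation (EK S.A W) hW).comap
      (Submodule.torsionBy ℤ (EK S.A W).Point (p : ℤ)).subtype.toAddMonoidHom)
    (P₀ := ⟨P₀, (hmemT _).2 hP₀p⟩) (Q := ⟨Q, (hmemT _).2 hQp⟩) (c := ⟨c, (hmemT _).2 hcp⟩)
    hP₀E (fun h => hP₀ (congrArg Subtype.val h)) hQE hcE
  refine ⟨k, hk, ?_⟩
  have := congrArg Subtype.val hkc
  simpa using this

end Ord2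


section Gen

variable {K : Type*} [Field K] [DecidableEq K] {Γ₀ : Type*} [LinearOrderedCommGroupWithZero Γ₀]
  {v : Valuation K Γ₀} {E : Affine K}

/-- `v (z(n P)) ≤ v (z(P))` in the kernel of reduction. -/
theorem val_zc_nsmul_le (hW : IntegralCoeffs v E) {P : E.Point} (hP : InE1 v P) (n : ℕ) :
    v (zc (n • P)) ≤ v (zc P) := by
  have hlt := hP.zc_lt_one hW
  obtain ⟨-, h2⟩ := nsmul_estimate hW hlt hP le_rfl n
  have h3 : v (zc P) ^ 2 ≤ v (zc P) := by
    rw [sq]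
    calc v (zc P) * v (zc P) ≤ 1 * v (zc P) := by gcongr
      _ = v (zc P) := one_mul _
  have e : zc (n • P) = (zc (n • P) - n * zc P) + n * zc P := by ring
  rw [e]
  exact v.map_add_le (h2.trans h3) (vle_int_mul (vle_natCast n) le_rfl)

/-- multiples of a point of prime order `p` by `k`, `0 < k < p`, have the same `v (z)`. -/
theorem val_zc_nsmul_eq (hW : IntegralCoeffs v E) {p : ℕ} (hp : p.Prime) {P : E.Point}
    (hP : InE1 v P) (hPp : p • P = 0) {k : ℕ} (hk0 : 0 < k) (hkp : k < p) :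
    v (zc (k • P)) = v (zc P) := by
  refine le_antisymm (val_zc_nsmul_le hW hP k) ?_
  have hcop : Nat.Coprime k p := by
    rw [Nat.coprime_comm, hp.coprime_iff_not_dvd]
    exact Nat.not_dvd_of_pos_of_lt hk0 hkp
  obtain ⟨m, -, hm⟩ := Nat.exists_mul_mod_eq_one_of_coprime hcop hp.one_lt
  have h1 : m • (k • P) = P := by
    rw [← mul_smul, mul_comm, ← Nat.div_add_mod (k * m) p, hm, add_smul, mul_smul, one_smul]
    rw [smul_comm, hPp, smul_zero, zero_add]
  have hkP : InE1 v (k • P) := (nsmul_estimate hW (hP.zc_lt_one hW) hP le_rfl k).1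
  calc v (zc P) = v (zc (m • (k • P))) := by rw [h1]
    _ ≤ v (zc (k • P)) := val_zc_nsmul_le hW hkP m

end Gen


section Ord3

variable {K : Type*} [Field K] [IsAlgClosed K] [DecidableEq K] {p : ℕ} (S : InertiaSetting K p)
  {W : WeierstrassCurve ℤ} (hgood : (Ek (WA S.A W)).Δ ≠ 0) (hp : p.Prime) (hp2 : p ≠ 2)
  (hord : IsOrd W p)

/-- the non-zero multiples of `P₀`. -/
def mults (P₀ : (EK S.A W).Point) : Finset (EK S.A W).Point :=
  (Finset.Icc 1 (p - 1)).image (fun k => k • P₀)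

include hp in
theorem nsmul_injOn {P₀ : (EK S.A W).Point} (hP₀ : P₀ ≠ 0) (hP₀p : p • P₀ = 0) :
    Set.InjOn (fun k : ℕ => k • P₀) (Finset.Icc 1 (p - 1) : Finset ℕ) := by
  have : Fact p.Prime := ⟨hp⟩
  have hord : addOrderOf P₀ = p := addOrderOf_eq_prime hP₀p hP₀
  intro k hk k' hk' h
  simp only [Finset.coe_Icc, Set.mem_Icc] at hk hk'
  have h1 : k ≡ k' [MOD p] := by
    rw [← hord]
    exact (nsmul_eq_nsmul_iff_modEq).mp h
  have hp1 := hp.one_lt
  exact Nat.ModEq.eq_of_lt_of_lt h1 (by omega) (by omega)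

include hp in
theorem mem_mults_props {P₀ c : (EK S.A W).Point} (hP₀ : P₀ ≠ 0) (hP₀p : p • P₀ = 0)
    (hP₀E : InE1 S.A.valuation P₀) (hc : c ∈ mults S P₀) :
    c ≠ 0 ∧ p • c = 0 ∧ InE1 S.A.valuation c ∧ S.A.valuation (zc c) = S.A.valuation (zc P₀) := by
  have hW := integralCoeffs (WA S.A W)
  have : Fact p.Prime := ⟨hp⟩
  have hordP : addOrderOf P₀ = p := addOrderOf_eq_prime hP₀p hP₀
  rw [mults, Finset.mem_image] at hc
  obtain ⟨k, hk, rfl⟩ := hc
  rw [Finset.mem_Icc] at hk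
  have hp1 := hp.one_lt
  refine ⟨?_, ?_, ?_, ?_⟩
  · intro h0
    have := addOrderOf_dvd_of_nsmul_eq_zero h0
    rw [hordP] at this
    exact absurd (Nat.le_of_dvd (by omega) this) (by omega)
  · rw [smul_comm, hP₀p, smul_zero]
  · exact (nsmul_estimate hW (hP₀E.zc_lt_one hW) hP₀E le_rfl k).1
  · exact val_zc_nsmul_eq hW hp hP₀E hP₀p (by omega) (by omega)

include hgood hp hp2 hord in
theorem mem_mults_of {P₀ c : (EK S.A W).Point} (hP₀ : P₀ ≠ 0) (hP₀p : p • P₀ = 0)
    (hP₀E : InE1 S.A.valuation P₀) (hc0 : c ≠ 0) (hcp : p • c = 0)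
    (hcE : InE1 S.A.valuation c) : c ∈ mults S P₀ := by
  obtain ⟨k, hk, rfl⟩ := exists_nsmul_eq S hgood hp hp2 hord hP₀ hP₀p hP₀E hcp hcE
  rw [mults, Finset.mem_image]
  refine ⟨k, ?_, rfl⟩
  rw [Finset.mem_Icc]
  have hk0 : k ≠ 0 := by
    rintro rfl
    exact hc0 (zero_smul _ _)
  omega

include hgood hp hp2 hord in
/-- **`v (z(P₀)) ^ (p - 1) = v (p)`** for a non-zero point `P₀` of `C = E[p] ∩ E₁`. -/
theorem val_zc_pow {P₀ : (EK S.A W).Point} (hP₀ : P₀ ≠ 0) (hP₀p : p • P₀ = 0)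
    (hP₀E : InE1 S.A.valuation P₀) :
    S.A.valuation (zc P₀) ^ (p - 1) = S.A.valuation (p : K) := by
  have hW := integralCoeffs (WA S.A W)
  have hodd := hp.odd_of_ne_two hp2
  have hprod : ∏ c ∈ mults S P₀, S.A.valuation (zc c) = S.A.valuation (zc P₀) ^ (p - 1) := by
    rw [Finset.prod_congr rfl (fun c hc => (mem_mults_props S hp hP₀ hP₀p hP₀E hc).2.2.2),
      Finset.prod_const, mults, Finset.card_image_of_injOn (nsmul_injOn S hp hP₀ hP₀p)]
    simp
  -- Lemma A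
  have hA : S.A.valuation (p : K) ≤ S.A.valuation (zc P₀) ^ (p - 1) := by
    rw [← hprod]
    exact val_le_prod_zc hW (separates S.A) hodd S.p_ne_zero (mults S P₀) (fun c hc => by
      obtain ⟨h1, h2, h3, -⟩ := mem_mults_props S hp hP₀ hP₀p hP₀E hc
      exact ⟨h1, h2, h3⟩)
  -- Lemma B
  set N : K := ∏ c ∈ mults S P₀, zc c with hN
  have hNval : S.A.valuation N = S.A.valuation (zc P₀) ^ (p - 1) := by
    rw [hN, map_prod, hprod]
  have hN0 : N ≠ 0 := by
    rw [hN, Finset.prod_ne_zero_iff]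
    intro c hc
    obtain ⟨h1, -, h3, -⟩ := mem_mults_props S hp hP₀ hP₀p hP₀E hc
    have := h3.zc_pos hW h1
    exact (Valuation.ne_zero_iff _).mp this.ne'
  have hfix : ∀ σ ∈ S.I, σ N = N := by
    intro σ hσ
    rw [hN, map_prod]
    have himg : (mults S P₀).image (act S.A W σ) = mults S P₀ := by
      apply Finset.eq_of_subset_of_card_le
      · intro c hc
        rw [Finset.mem_image] at hc
        obtain ⟨c', hc', rfl⟩ := hc
        obtain ⟨h1, h2, h3, -⟩ := mem_mults_props S hp hP₀ hP₀p hP₀E hc'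
        refine mem_mults_of S hgood hp hp2 hord hP₀ hP₀p hP₀E ?_ ?_ ?_
        · rwa [Ne, act_eq_zero_iff]
        · rw [← nsmul_act, h2, map_zero]
        · exact (inE1_act_iff S σ hσ c').mpr h3
      · rw [Finset.card_image_of_injective _ (act_injective σ)]
    calc ∏ c ∈ mults S P₀, σ (zc c) = ∏ c ∈ mults S P₀, zc (act S.A W σ c) := by
          refine Finset.prod_congr rfl fun c _ => (zc_act σ c).symm
      _ = ∏ c ∈ (mults S P₀).image (act S.A W σ), zc c := by
          rw [Finset.prod_image (fun x _ y _ h => act_injective σ h)]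
      _ = ∏ c ∈ mults S P₀, zc c := by rw [himg]
  obtain ⟨n, hn⟩ := S.fixed_val N hN0 hfix
  have hvp0 : 0 < S.A.valuation (p : K) := by
    rw [zero_lt_iff, Valuation.ne_zero_iff]
    exact S.p_ne_zero
  have hp1 : 0 < p - 1 := by have := hp.two_le; omega
  have hlt : S.A.valuation N < 1 := by
    rw [hNval]
    exact pow_lt_one₀ zero_le (hP₀E.zc_lt_one hW) hp1.ne'
  have hn1 : 1 ≤ n := by
    by_contra hcon
    push Not at hcon
    have : (1 : S.A.ValueGroup) ≤ S.A.valuation (p : K) ^ n := by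
      have h0 : n ≤ 0 := by omega
      have := (zpow_le_zpow_iff_right_of_lt_one₀ hvp0 S.val_p_lt_one (m := 0) (n := n)).mpr h0
      simpa using this
    rw [← hn] at this
    exact absurd hlt (not_lt.mpr this)
  have hB : S.A.valuation (zc P₀) ^ (p - 1) ≤ S.A.valuation (p : K) := by
    rw [← hNval, hn]
    have := (zpow_le_zpow_iff_right_of_lt_one₀ hvp0 S.val_p_lt_one (m := n) (n := 1)).mpr hn1
    simpa using this
  exact le_antisymm hB hA

end Ord3


section Ord4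

variable {K : Type*} [Field K] [IsAlgClosed K] [DecidableEq K] {p : ℕ} (S : InertiaSetting K p)
  {W : WeierstrassCurve ℤ} (hgood : (Ek (WA S.A W)).Δ ≠ 0) (hp : p.Prime) (hp2 : p ≠ 2)
  (hord : IsOrd W p)

include hgood hp hp2 hord in
/-- **No non-zero point of `C` is fixed by inertia.** -/
theorem exists_act_ne {P₀ : (EK S.A W).Point} (hP₀ : P₀ ≠ 0) (hP₀p : p • P₀ = 0)
    (hP₀E : InE1 S.A.valuation P₀) : ∃ σ ∈ S.I, act S.A W σ P₀ ≠ P₀ := by
  by_contra hcon
  push Not at hcon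
  have hW := integralCoeffs (WA S.A W)
  have hz0 : zc P₀ ≠ 0 := (Valuation.ne_zero_iff _).mp (hP₀E.zc_pos hW hP₀).ne'
  have hfix : ∀ σ ∈ S.I, σ (zc P₀) = zc P₀ := by
    intro σ hσ
    rw [← zc_act, hcon σ hσ]
  obtain ⟨n, hn⟩ := S.fixed_val _ hz0 hfix
  have hpow := val_zc_pow S hgood hp hp2 hord hP₀ hP₀p hP₀E
  have hvp0 : 0 < S.A.valuation (p : K) := by
    rw [zero_lt_iff, Valuation.ne_zero_iff]
    exact S.p_ne_zero
  rw [hn, ← zpow_natCast, ← zpow_mul] at hpow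
  have h1 : n * ((p - 1 : ℕ) : ℤ) = 1 := by
    have := zpow_right_injective₀ hvp0 S.val_p_lt_one.ne
      (a₁ := n * ((p - 1 : ℕ) : ℤ)) (a₂ := 1) (by simpa using hpow)
    exact this
  have h2 : ((p - 1 : ℕ) : ℤ) ∣ 1 := ⟨n, by rw [mul_comm]; exact h1.symm⟩
  have h3 := Int.eq_one_of_dvd_one (by positivity) h2
  have h4 : p - 1 = 1 := by exact_mod_cast h3
  have := hp.two_le
  omega

include hgood hp hp2 hord in
/-- inertia acts on `C` through multiplication by units. -/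
theorem exists_act_eq_nsmul {P₀ : (EK S.A W).Point} (hP₀ : P₀ ≠ 0) (hP₀p : p • P₀ = 0)
    (hP₀E : InE1 S.A.valuation P₀) (σ : K ≃+* K) (hσ : σ ∈ S.I) :
    ∃ a : ℕ, 0 < a ∧ a < p ∧ act S.A W σ P₀ = a • P₀ := by
  have h := mem_mults_of S hgood hp hp2 hord hP₀ hP₀p hP₀E
    (c := act S.A W σ P₀) (by rwa [Ne, act_eq_zero_iff]) (by rw [← nsmul_act, hP₀p, map_zero])
    ((inE1_act_iff S σ hσ P₀).mpr hP₀E)
  rw [mults, Finset.mem_image] at h
  obtain ⟨a, ha, hae⟩ := h
  rw [Finset.mem_Icc] at ha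
  have := hp.two_le
  exact ⟨a, by omega, by omega, hae.symm⟩

variable [DecidableEq (ResidueField S.A)]

include hgood hp hp2 hord in
/-- inertia moves the `p`-torsion points by elements of `C`. -/
theorem exists_act_eq_add {P₀ : (EK S.A W).Point} (hP₀ : P₀ ≠ 0) (hP₀p : p • P₀ = 0)
    (hP₀E : InE1 S.A.valuation P₀) (σ : K ≃+* K) (hσ : σ ∈ S.I) {Q : (EK S.A W).Point}
    (hQ : p • Q = 0) : ∃ n : ℕ, n < p ∧ act S.A W σ Q = Q + n • P₀ := by
  have h1 := inE1_act_sub S hgood σ hσ Q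
  have h2 : p • (act S.A W σ Q - Q) = 0 := by
    rw [smul_sub, ← nsmul_act, hQ, map_zero, sub_zero]
  obtain ⟨n, hn, hne⟩ := exists_nsmul_eq S hgood hp hp2 hord hP₀ hP₀p hP₀E h2 h1
  exact ⟨n, hn, by rw [← hne]; abel⟩

end Ord4

end Fermat.Agent.T1.ELoc63.Structure
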