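/-
Programme T1b (S40/S33), brick ELOC (E-side local analysis at `p`), file 1 (helper63).

Translation estimate on a Weierstrass curve with integral coefficients over a valued field:
if `P = (x₁, y₁)` is an integral point which is not `2`-torsion modulo the maximal ideal
(`v (2 y₁ + a₁ x₁ + a₃) = 1`) and `Q = (x₂, y₂)` lies in the kernel of reduction (`1 < v x₂`), then
`x(P + Q) - x(P)` has exactly the valuation of the parameter `z(Q) = -x₂ / y₂`.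

Framework: `Fermat.Agent.S05.Kernel` (coordinates `z = -x/y`, `IntegralCoeffs`, `InE1`).
-/
import Mathlib
import Fermat.Agent.S05.Kernel

set_option autoImplicit false

open WeierstrassCurve WeierstrassCurve.Affine

namespace Fermat.Agent.T1.ELoc63.Translate

open Fermat.Agent.S05.Kernel

section Algebra

variable {K : Type*} [Field K] {W : Affine K}

/-- The basic polynomial identity behind the translation estimate. -/
theorem addX_sub_mul_sq {x₁ y₁ x₂ y₂ : K} (h₁ : W.Equation x₁ y₁) (h₂ : W.Equation x₂ y₂)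
    (hx : x₁ ≠ x₂) :
    (W.addX x₁ x₂ ((y₁ - y₂) / (x₁ - x₂)) - x₁) * (x₁ - x₂) ^ 2 =
      -y₂ * (2 * y₁ + W.a₁ * x₁ + W.a₃) + x₂ * (3 * x₁ ^ 2 + 2 * W.a₂ * x₁ + W.a₄ - W.a₁ * y₁)
        + (2 * W.a₆ + W.a₄ * x₁ - W.a₃ * y₁ - x₁ ^ 3) := by
  rw [equation_iff] at h₁ h₂
  have hu : x₁ - x₂ ≠ 0 := sub_ne_zero.mpr hx
  unfold addX
  field_simp
  linear_combination h₁ + h₂

end Algebra

section Val

variable {K : Type*} [Field K] {Γ₀ : Type*} [LinearOrderedCommGroupWithZero Γ₀]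
  {v : Valuation K Γ₀} {W : Affine K}

/-- **Translation estimate (coordinates).** -/
theorem val_addX_sub (hW : IntegralCoeffs v W) {x₁ y₁ x₂ y₂ : K}
    (h₁ : W.Equation x₁ y₁) (h₂ : W.Equation x₂ y₂)
    (hx₁ : v x₁ ≤ 1) (hy₁ : v y₁ ≤ 1) (hu : v (2 * y₁ + W.a₁ * x₁ + W.a₃) = 1)
    (hx₂ : 1 < v x₂) :
    x₁ ≠ x₂ ∧ v (W.addX x₁ x₂ ((y₁ - y₂) / (x₁ - x₂)) - x₁) = v (-x₂ / y₂) := by
  obtain ⟨ha₁, ha₂, ha₃, ha₄, ha₆⟩ := hW
  have hW' : IntegralCoeffs v W := ⟨ha₁, ha₂, ha₃, ha₄, ha₆⟩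
  obtain ⟨hxy, hyx⟩ := vy_of_vx hW' h₂ hx₂
  have hx0 : 0 < v x₂ := lt_trans zero_lt_one hx₂
  have hy0 : 0 < v y₂ := lt_trans hx0 hxy
  have hy1 : 1 < v y₂ := lt_trans hx₂ hxy
  have hne : x₁ ≠ x₂ := by
    rintro rfl
    exact absurd hx₁ (not_le.mpr hx₂)
  refine ⟨hne, ?_⟩
  have hid := addX_sub_mul_sq h₁ h₂ hne
  -- valuation of the right-hand side
  have hT1 : v (-y₂ * (2 * y₁ + W.a₁ * x₁ + W.a₃)) = v y₂ := by
    rw [map_mul, Valuation.map_neg, hu, mul_one]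
  have hc : v (3 * x₁ ^ 2 + 2 * W.a₂ * x₁ + W.a₄ - W.a₁ * y₁) ≤ 1 := by
    refine v.map_sub_le (v.map_add_le (v.map_add_le ?_ ?_) ha₄) (vle_int_mul ha₁ hy₁)
    · exact vle_int_mul vle_ofNat_three (by rw [map_pow]; exact pow_le_one₀ zero_le hx₁)
    · exact vle_int_mul (vle_int_mul vle_ofNat_two ha₂) hx₁
  have hT2 : v (x₂ * (3 * x₁ ^ 2 + 2 * W.a₂ * x₁ + W.a₄ - W.a₁ * y₁)) < v y₂ :=
    lt_of_le_of_lt (vle_mul_int le_rfl hc) hxy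
  have hT3 : v (2 * W.a₆ + W.a₄ * x₁ - W.a₃ * y₁ - x₁ ^ 3) < v y₂ := by
    refine lt_of_le_of_lt ?_ hy1
    refine v.map_sub_le (v.map_sub_le (v.map_add_le ?_ ?_) ?_) ?_
    · exact vle_int_mul vle_ofNat_two ha₆
    · exact vle_int_mul ha₄ hx₁
    · exact vle_int_mul ha₃ hy₁
    · rw [map_pow]; exact pow_le_one₀ zero_le hx₁
  have hR : v (-y₂ * (2 * y₁ + W.a₁ * x₁ + W.a₃)
      + x₂ * (3 * x₁ ^ 2 + 2 * W.a₂ * x₁ + W.a₄ - W.a₁ * y₁)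
      + (2 * W.a₆ + W.a₄ * x₁ - W.a₃ * y₁ - x₁ ^ 3)) = v y₂ := by
    rw [v.map_add_eq_of_lt_left, v.map_add_eq_of_lt_left, hT1]
    · rw [hT1]; exact hT2
    · rw [v.map_add_eq_of_lt_left (by rw [hT1]; exact hT2), hT1]; exact hT3
  -- valuation of the denominator
  have hden : v (x₁ - x₂) = v x₂ := by
    rw [Valuation.map_sub_swap]
    exact v.map_sub_eq_of_lt_left (lt_of_le_of_lt hx₁ hx₂)
  have hmul : v (W.addX x₁ x₂ ((y₁ - y₂) / (x₁ - x₂)) - x₁) * v x₂ ^ 2 = v y₂ := by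
    rw [← hden, ← map_pow, ← map_mul, hid, hR]
  have hz : v (-x₂ / y₂) = v x₂ / v y₂ := by rw [map_div₀, Valuation.map_neg]
  rw [hz]
  have hx2ne : v x₂ ^ 2 ≠ 0 := pow_ne_zero 2 hx0.ne'
  have hyne : v y₂ ≠ 0 := hy0.ne'
  -- `a * X^2 = Y`, `Y^2 = X^3`  ⟹  `a = X / Y`
  rw [eq_div_iff hyne]
  have h3 : v (W.addX x₁ x₂ ((y₁ - y₂) / (x₁ - x₂)) - x₁) * v y₂ * v x₂ ^ 2 = v x₂ * v x₂ ^ 2 := by
    calc v (W.addX x₁ x₂ ((y₁ - y₂) / (x₁ - x₂)) - x₁) * v y₂ * v x₂ ^ 2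
        = (v (W.addX x₁ x₂ ((y₁ - y₂) / (x₁ - x₂)) - x₁) * v x₂ ^ 2) * v y₂ :=
          mul_right_comm _ _ _
      _ = v y₂ ^ 2 := by rw [hmul, sq]
      _ = v x₂ * v x₂ ^ 2 := by rw [hyx, pow_succ' (v x₂) 2]
  exact mul_right_cancel₀ hx2ne h3

variable [DecidableEq K]

/-- **Translation estimate (points).**  `P` integral, not `2`-torsion mod `𝔪`; `Q` in the kernel
of reduction: `P + Q` is an affine point whose `x`-coordinate differs from `x(P)` by exactly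
`v (z(Q))`. -/
theorem val_add_some (hW : IntegralCoeffs v W) {x₁ y₁ x₂ y₂ : K}
    (h₁ : W.Nonsingular x₁ y₁) (h₂ : W.Nonsingular x₂ y₂)
    (hx₁ : v x₁ ≤ 1) (hy₁ : v y₁ ≤ 1) (hu : v (2 * y₁ + W.a₁ * x₁ + W.a₃) = 1)
    (hx₂ : 1 < v x₂) :
    ∃ (x₃ y₃ : K) (h₃ : W.Nonsingular x₃ y₃),
      Point.some x₁ y₁ h₁ + Point.some x₂ y₂ h₂ = Point.some x₃ y₃ h₃ ∧
        v (x₃ - x₁) = v (-x₂ / y₂) := by
  obtain ⟨hne, hval⟩ := val_addX_sub hW h₁.1 h₂.1 hx₁ hy₁ hu hx₂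
  have hxy : ¬(x₁ = x₂ ∧ y₁ = W.negY x₂ y₂) := fun h => hne h.1
  refine ⟨_, _, nonsingular_add h₁ h₂ hxy, Point.add_some hxy, ?_⟩
  rw [slope_of_X_ne hne]
  exact hval

end Val

end Fermat.Agent.T1.ELoc63.Translate
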