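/-
Programme T1B (row 38), brick ELOC (E-side local analysis at `p`), file 8 (helper63).

**(PEU), good ordinary case**, in an abstract `InertiaSetting`:
`W : WeierstrassCurve ℤ` with good reduction, `p` an odd prime, `IsOrd W p`, `P₀` a non-zero point of
`C = E[p] ∩ E₁`, `ζ` a primitive `p`-th root of unity such that `k P₀ ↦ ζ ^ k` is `I`-equivariant.
For every `Q ∈ E[p]` there is `y ≠ 0` with `v (y) ∈ v (p) ^ ℤ` and `σ y = ζ ^ m · y` whenever
`σ ∈ I`, `σ Q = Q + m P₀`.  (In the B5 model `H1U45.exists_oneUnit_of_muP_cocycle` turns `y` into a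
`1`-unit.)
-/
import Mathlib
import Fermat.Agent.T1.ELoc63.Structure
import Fermat.Agent.T1.ELoc63.Resolvent
import Fermat.Agent.T1.ELoc63.Translate

set_option autoImplicit false
set_option linter.unusedSectionVars false
set_option linter.style.haveILetI false

open WeierstrassCurve WeierstrassCurve.Affine IsLocalRing Polynomial

namespace Fermat.Agent.T1.ELoc63.Peu

open Fermat.Agent.RedTors.RedMap Fermat.Agent.RedTors.RedHom Fermat.Agent.RedTors.Galois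
  Fermat.Agent.S05.Kernel Fermat.Agent.T1.ELoc63.Setting Fermat.Agent.T1.ELoc63.Points
  Fermat.Agent.T1.ELoc63.DivProd Fermat.Agent.T1.ELoc63.Structure
  Fermat.Agent.T1.ELoc63.Resolvent Fermat.Agent.T1.ESS46.Dichotomy

section ZHom

variable {G : Type*} [AddCommGroup G] {p : ℕ}

/-- `k ↦ k P₀` on `ZMod p`, for `P₀` killed by `p`. -/
def zhom (P₀ : G) (h : p • P₀ = 0) : ZMod p →+ G :=
  ZMod.lift p ⟨zmultiplesHom G P₀, by
    rw [zmultiplesHom_apply, natCast_zsmul]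
    exact h⟩

theorem zhom_natCast (P₀ : G) (h : p • P₀ = 0) (m : ℕ) : zhom P₀ h (m : ZMod p) = m • P₀ := by
  have := ZMod.lift_coe p (⟨zmultiplesHom G P₀, by
    rw [zmultiplesHom_apply, natCast_zsmul]
    exact h⟩ : {f : ℤ →+ G // f p = 0}) (m : ℤ)
  rw [Int.cast_natCast] at this
  rw [zhom, this]
  simp [zmultiplesHom_apply]

theorem zhom_apply [NeZero p] (P₀ : G) (h : p • P₀ = 0) (k : ZMod p) :
    zhom P₀ h k = k.val • P₀ := by
  rw [← zhom_natCast P₀ h, ZMod.natCast_zmod_val]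

theorem zhom_eq_zero_iff [hp : Fact p.Prime] {P₀ : G} (h : p • P₀ = 0) (hP₀ : P₀ ≠ 0)
    (k : ZMod p) : zhom P₀ h k = 0 ↔ k = 0 := by
  constructor
  · intro hk
    rw [zhom_apply] at hk
    have hord : addOrderOf P₀ = p := addOrderOf_eq_prime h hP₀
    have := addOrderOf_dvd_of_nsmul_eq_zero hk
    rw [hord] at this
    rw [← ZMod.natCast_zmod_val k, ZMod.natCast_eq_zero_iff]
    exact this
  · rintro rfl
    exact map_zero _

theorem natCast_eq_of_nsmul_eq [hp : Fact p.Prime] {P₀ : G} (h : p • P₀ = 0) (hP₀ : P₀ ≠ 0)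
    {m₁ m₂ : ℕ} (he : m₁ • P₀ = m₂ • P₀) : (m₁ : ZMod p) = (m₂ : ZMod p) := by
  have h1 : zhom P₀ h ((m₁ : ZMod p) - (m₂ : ZMod p)) = 0 := by
    rw [map_sub, zhom_natCast, zhom_natCast, he, sub_self]
  exact sub_eq_zero.mp ((zhom_eq_zero_iff h hP₀ _).mp h1)

end ZHom

section Main

variable {K : Type*} [Field K] [IsAlgClosed K] [DecidableEq K] {p : ℕ} (S : InertiaSetting K p)
  {W : WeierstrassCurve ℤ} [DecidableEq (ResidueField S.A)]
  (hgood : (Ek (WA S.A W)).Δ ≠ 0) (hp : p.Prime) (hp2 : p ≠ 2) (hord : IsOrd W p)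

include hgood hp hp2 hord in
/-- **(PEU), good ordinary case.** -/
theorem peu_good {P₀ : (EK S.A W).Point} (hP₀ : P₀ ≠ 0) (hP₀p : p • P₀ = 0)
    (hP₀E : InE1 S.A.valuation P₀) {ζ : K} (hζ : ζ ^ p = 1) (hζ1 : ζ ≠ 1)
    (hχ : ∀ σ ∈ S.I, ∀ m : ℕ, act S.A W σ P₀ = m • P₀ → σ ζ = ζ ^ m)
    {Q : (EK S.A W).Point} (hQ : p • Q = 0) :
    ∃ y : K, y ≠ 0 ∧ (∃ m : ℤ, S.A.valuation y = S.A.valuation (p : K) ^ m) ∧
      ∀ σ ∈ S.I, ∀ m : ℕ, act S.A W σ Q = Q + m • P₀ → σ y = ζ ^ m * y := by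
  classical
  haveI : Fact p.Prime := ⟨hp⟩
  have hW := integralCoeffs (WA S.A W)
  have hζ0 : ζ ≠ 0 := fun h => by
    rw [h, zero_pow hp.ne_zero] at hζ
    exact zero_ne_one hζ
  have hζpow : ∀ m₁ m₂ : ℕ, (m₁ : ZMod p) = m₂ → ζ ^ m₁ = ζ ^ m₂ := by
    intro m₁ m₂ h
    rw [ZMod.natCast_eq_natCast_iff] at h
    rw [pow_eq_pow_mod m₁ hζ, pow_eq_pow_mod m₂ hζ, h]
  by_cases hQE : InE1 S.A.valuation Q
  · -- `Q ∈ C`
    obtain ⟨q, -, rfl⟩ := exists_nsmul_eq S hgood hp hp2 hord hP₀ hP₀p hP₀E hQ hQE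
    refine ⟨ζ ^ q, pow_ne_zero _ hζ0, ⟨0, ?_⟩, ?_⟩
    · rw [zpow_zero, map_pow, val_eq_one_of_pow_eq_one _ hp.ne_zero hζ, one_pow]
    · intro σ hσ m hm
      obtain ⟨a, -, -, ha⟩ := exists_act_eq_nsmul S hgood hp hp2 hord hP₀ hP₀p hP₀E σ hσ
      rw [map_pow, hχ σ hσ a ha, ← pow_mul, ← pow_add]
      apply hζpow
      apply natCast_eq_of_nsmul_eq hP₀p hP₀
      rw [nsmul_act, ha, ← mul_smul] at hm
      rw [mul_comm, hm, add_smul, add_comm]
  · -- `Q ∉ C`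
    set g := zhom P₀ hP₀p with hg
    have h1 : ∀ σ : K ≃+* K, ∃ a : ℕ, σ ∈ S.I →
        (0 < a ∧ a < p ∧ act S.A W σ P₀ = a • P₀) := by
      intro σ
      by_cases hσ : σ ∈ S.I
      · obtain ⟨a, h⟩ := exists_act_eq_nsmul S hgood hp hp2 hord hP₀ hP₀p hP₀E σ hσ
        exact ⟨a, fun _ => h⟩
      · exact ⟨0, fun h => absurd h hσ⟩
    choose af haf using h1
    have h2 : ∀ σ : K ≃+* K, ∃ n : ℕ, σ ∈ S.I → (n < p ∧ act S.A W σ Q = Q + n • P₀) := by
      intro σ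
      by_cases hσ : σ ∈ S.I
      · obtain ⟨n, h⟩ := exists_act_eq_add S hgood hp hp2 hord hP₀ hP₀p hP₀E σ hσ hQ
        exact ⟨n, fun _ => h⟩
      · exact ⟨0, fun h => absurd h hσ⟩
    choose nf hnf using h2
    set F : ZMod p → K := fun k => xc (Q + g k) with hF
    have ha : ∀ σ ∈ S.I, ((af σ : ℕ) : ZMod p) ≠ 0 := by
      intro σ hσ h
      obtain ⟨h0, hlt, -⟩ := haf σ hσ
      rw [ZMod.natCast_eq_zero_iff] at h
      exact absurd (Nat.le_of_dvd h0 h) (not_le.mpr hlt)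
    have hσζ : ∀ σ ∈ S.I, σ ζ = chr hζ ((af σ : ℕ) : ZMod p) := by
      intro σ hσ
      obtain ⟨-, hlt, he⟩ := haf σ hσ
      rw [chr_apply, ZMod.val_natCast, Nat.mod_eq_of_lt hlt]
      exact hχ σ hσ _ he
    have hσF : ∀ σ ∈ S.I, ∀ k, σ (F k) = F (((nf σ : ℕ) : ZMod p) + ((af σ : ℕ) : ZMod p) * k) := by
      intro σ hσ k
      obtain ⟨-, -, he⟩ := haf σ hσ
      obtain ⟨-, hn⟩ := hnf σ hσ
      have e1 : act S.A W σ (g k) = g (((af σ : ℕ) : ZMod p) * k) := by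
        rw [hg, zhom_apply P₀ hP₀p k, nsmul_act, he, ← mul_smul,
          ← zhom_natCast P₀ hP₀p (k.val * af σ)]
        congr 1
        push_cast
        rw [ZMod.natCast_zmod_val]
        ring
      have e2 : g ((nf σ : ℕ) : ZMod p) = nf σ • P₀ := zhom_natCast P₀ hP₀p _
      change σ (xc (Q + g k)) = xc (Q + g (((nf σ : ℕ) : ZMod p) + ((af σ : ℕ) : ZMod p) * k))
      rw [← xc_act, map_add, hn, e1, map_add g, e2, add_assoc]
    -- `Q` is an integral affine point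
    have hQ0 : Q ≠ 0 := fun h => hQE (h ▸ inE1_zero _)
    obtain ⟨x₁, y₁, h₁, rfl⟩ : ∃ (x₁ y₁ : K) (h₁ : (EK S.A W).Nonsingular x₁ y₁),
        Q = Point.some x₁ y₁ h₁ := by
      rcases Q with _ | ⟨x, y, h⟩
      · exact absurd rfl hQ0
      · exact ⟨x, y, h, rfl⟩
    have hx₁ : S.A.valuation x₁ ≤ 1 := by
      rw [inE1_some] at hQE
      exact not_lt.mp hQE
    have hy₁ : S.A.valuation y₁ ≤ 1 := by
      by_contra hy
      exact absurd (vx_of_vy hW h₁.1 (not_le.mp hy)) (not_lt.mpr hx₁)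
    have hu := val_psi2_eq_one S hgood (hp.odd_of_ne_two hp2) h₁ hQ hx₁
    have hF0e : F 0 = x₁ := by
      rw [hF]
      simp only [map_zero, add_zero]
      rfl
    have hF0 : S.A.valuation (F 0) ≤ S.A.valuation (p : K) ^ (0 : ℤ) := by
      rw [zpow_zero, hF0e]
      exact hx₁
    -- `v (z(P₀)) = v (ζ - 1)`
    have hzζ : S.A.valuation (zc P₀) = S.A.valuation (ζ - 1) := by
      have h1 := val_zc_pow S hgood hp hp2 hord hP₀ hP₀p hP₀E
      have h2 := val_sub_one_pow S.A.valuation hp hζ hζ1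
      have hp1 : p - 1 ≠ 0 := by have := hp.two_le; omega
      exact (pow_left_inj₀ zero_le zero_le hp1).mp (h1.trans h2.symm)
    have hd : ∀ k : ZMod p, k ≠ 0 →
        S.A.valuation (p : K) ^ (0 : ℤ) * S.A.valuation (ζ - 1) ≤ S.A.valuation (F k - F 0) := by
      intro k hk
      rw [zpow_zero, one_mul]
      have hgk0 : g k ≠ 0 := fun h => hk ((zhom_eq_zero_iff hP₀p hP₀ k).mp h)
      have hkv : 0 < k.val := Nat.pos_of_ne_zero (fun h => hk ((ZMod.val_eq_zero k).mp h))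
      have hgkE : InE1 S.A.valuation (g k) := by
        rw [hg, zhom_apply]
        exact (nsmul_estimate hW (hP₀E.zc_lt_one hW) hP₀E le_rfl k.val).1
      have hgkz : S.A.valuation (zc (g k)) = S.A.valuation (zc P₀) := by
        rw [hg, zhom_apply]
        exact val_zc_nsmul_eq hW hp hP₀E hP₀p hkv (ZMod.val_lt k)
      rcases hgkE with h0 | ⟨x₂, y₂, h₂, he, hx₂⟩
      · exact absurd h0 hgk0
      · obtain ⟨x₃, y₃, h₃, hsum, hval⟩ :=
          Fermat.Agent.T1.ELoc63.Translate.val_add_some hW h₁ h₂ hx₁ hy₁ hu hx₂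
        have hFk : F k = x₃ := by
          rw [hF]
          simp only
          rw [he, hsum]
          rfl
        rw [hFk, hF0e, hval, ← zc_some h₂, ← he, hgkz, hzζ]
    obtain ⟨y, hy0, hyv, hyσ⟩ := exists_kummer_generator S hζ hζ1 F
      (fun σ => ((af σ : ℕ) : ZMod p)) (fun σ => ((nf σ : ℕ) : ZMod p)) ha hσζ hσF 0 hF0 hd
    refine ⟨y, hy0, hyv, ?_⟩
    intro σ hσ m hm
    obtain ⟨-, hn⟩ := hnf σ hσ
    rw [hyσ σ hσ, chr_apply, ZMod.val_natCast, ← pow_eq_pow_mod _ hζ]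
    congr 1
    apply hζpow
    apply natCast_eq_of_nsmul_eq hP₀p hP₀
    rw [hn] at hm
    exact add_left_cancel hm

end Main

end Fermat.Agent.T1.ELoc63.Peu
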